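import Mathlib.RingTheory.Discriminant
import Mathlib.RingTheory.Norm.Transitivity
import Mathlib.LinearAlgebra.Matrix.Kronecker

/-!
# Tower formula for discriminants (A2, piece COUNT / C-DISC; Mathlib only)

For a tower of commutative rings `A ⊆ B ⊆ C` with `B` free over `A` with basis `b` (indexed by
`ι`) and `C` free over `B` with basis `c` (indexed by `κ`):

`discr A (b.smulTower' c) = discr A b ^ card κ * norm A (discr B c)`.

In particular, if `discr B c` is a unit (`C / B` étale), then the discriminant of `C / A` is the
`card κ`-th power of the discriminant of `B / A` up to a unit.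
-/

set_option autoImplicit false

namespace Fermat.Agent.A2.H733

open Matrix Module

variable {A B C : Type*} [CommRing A] [CommRing B] [CommRing C]
  [Algebra A B] [Algebra B C] [Algebra A C] [IsScalarTower A B C]
  {ι κ : Type*} [Fintype ι] [Fintype κ] [DecidableEq ι] [DecidableEq κ]

/-- `Tr_{B/A} (b i * (x * b k)) = ∑ i', G i i' * L(x) i' k`, where `G` is the trace matrix of `b`
and `L` the left multiplication matrix. -/
lemma trace_mul_mul_eq_sum (b : Basis ι A B) (x : B) (i k : ι) :
    Algebra.trace A B (b i * (x * b k)) =
      ∑ i', Algebra.traceMatrix A b i i' * Algebra.leftMulMatrix b x i' k := by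
  have hx : x * b k = ∑ i', Algebra.leftMulMatrix b x i' k • b i' := by
    conv_lhs => rw [← b.sum_repr (x * b k)]
    simp only [Algebra.leftMulMatrix_eq_repr_mul]
  rw [hx, Finset.mul_sum, map_sum]
  refine Finset.sum_congr rfl fun i' _ => ?_
  rw [mul_smul_comm, map_smul, smul_eq_mul, mul_comm, Algebra.traceMatrix_apply,
    Algebra.traceForm_apply]

/-- The trace matrix of the product basis as a product of a Kronecker matrix and the block
matrix of left multiplications. -/
lemma traceMatrix_smulTower' (b : Basis ι A B) (c : Basis κ B C) :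
    Algebra.traceMatrix A (b.smulTower' c) =
      Matrix.kroneckerMap (· * ·) (1 : Matrix κ κ A) (Algebra.traceMatrix A b) *
        Matrix.comp κ κ ι ι A
          ((Algebra.traceMatrix B c).map (Algebra.leftMulMatrix b)) := by
  ext ⟨j, i⟩ ⟨l, k⟩
  rw [Algebra.traceMatrix_apply, Algebra.traceForm_apply, Basis.smulTower'_apply,
    Basis.smulTower'_apply]
  simp only
  -- the left-hand side
  have h1 : b i • c j * b k • c l = (b i * b k) • (c j * c l) := by
    rw [smul_mul_smul_comm]
  have h2 : Algebra.trace A C ((b i * b k) • (c j * c l)) =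
      Algebra.trace A B (b i * (Algebra.traceMatrix B c j l * b k)) := by
    rw [← Algebra.trace_trace_of_basis b c, map_smul, smul_eq_mul, Algebra.traceMatrix_apply,
      Algebra.traceForm_apply]
    congr 1
    ring
  rw [h1, h2, trace_mul_mul_eq_sum, Matrix.mul_apply, Fintype.sum_prod_type]
  -- the right-hand side
  rw [Finset.sum_eq_single j]
  · refine Finset.sum_congr rfl fun i' _ => ?_
    simp [Matrix.kroneckerMap_apply, Matrix.comp_apply, Matrix.map_apply]
  · intro j' _ hj'
    refine Finset.sum_eq_zero fun i' _ => ?_
    simp [Matrix.kroneckerMap_apply, Ne.symm hj']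
  · intro h
    exact absurd (Finset.mem_univ j) h

/-- **Tower formula for discriminants.** -/
theorem discr_smulTower' (b : Basis ι A B) (c : Basis κ B C) :
    Algebra.discr A (b.smulTower' c) =
      Algebra.discr A b ^ Fintype.card κ * Algebra.norm A (Algebra.discr B c) := by
  rw [Algebra.discr_def, traceMatrix_smulTower', Matrix.det_mul]
  congr 1
  · have := Matrix.det_kronecker (1 : Matrix κ κ A) (Algebra.traceMatrix A b)
    rw [Matrix.det_one, one_pow, one_mul] at this
    rw [Algebra.discr_def]
    exact this
  · rw [Algebra.norm_eq_matrix_det b, Algebra.discr_def]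
    exact (Matrix.det_det (Algebra.traceMatrix B c)
      (Algebra.leftMulMatrix b : B →ₐ[A] Matrix ι ι A).toRingHom).symm

/-- Tower formula for discriminants, for `Basis.smulTower`. -/
theorem discr_smulTower (b : Basis ι A B) (c : Basis κ B C) :
    Algebra.discr A (b.smulTower c) =
      Algebra.discr A b ^ Fintype.card κ * Algebra.norm A (Algebra.discr B c) := by
  rw [← discr_smulTower' b c]
  have h : (b.smulTower' c : κ × ι → C) = (b.smulTower c) ∘ (Equiv.prodComm ι κ).symm := by
    funext ⟨j, i⟩
    rw [Basis.smulTower'_apply, Function.comp_apply, Basis.smulTower_apply]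
    rfl
  rw [h, Algebra.discr_reindex]

/-- If `C / B` has unit discriminant, the discriminant of `C / A` is a unit times the
`card κ`-th power of the discriminant of `B / A`. -/
theorem discr_smulTower_of_isUnit (b : Basis ι A B) (c : Basis κ B C)
    (hc : IsUnit (Algebra.discr B c)) :
    ∃ u : Aˣ, Algebra.discr A (b.smulTower c) = u * Algebra.discr A b ^ Fintype.card κ := by
  have hu : IsUnit (Algebra.norm A (Algebra.discr B c)) := hc.map (Algebra.norm A)
  refine ⟨hu.unit, ?_⟩
  rw [discr_smulTower, IsUnit.unit_spec, mul_comm]

end Fermat.Agent.A2.H733
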