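import Fermat.Agent.A2.H733.C6Sheets
import Mathlib.RingTheory.Ideal.Maps

/-!
# Route G, C6-BRIDGE, part 4: from the charts in characteristic `0` to COUNT

`B₀ → B₁` the charts of base and cover (abstract rings; in the application the integral closures
of `R[x]` in `F` and in the cover `L`), `ρ₀ : B₀ → C`, `ρ₁ : B₁ → ℭ` the reductions to the special
fibres (surjective, kernels generated by `w`), `C`, `ℭ` finite free over the PID `Λ = k[x]`.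

Primitive hypotheses, all in characteristic `0`:

* `p₁ p₂ : Ideal B₀` : the two components (`SSChart`: primes, incomparable, `p₁ ⊓ p₂ = (w)`,
  `p₁ ⊔ p₂` radical);
* `Q₁ Q₂ : ι → Ideal B₁` : the sheets of the two colours, `Qⱼ s ∩ B₀ = pⱼ`
  and `B₁ = B₀ + Qⱼ s` (sheet ≅ component: C2 + M4);
* `hred` : the special fibre of the cover is reduced, every component is a sheet (C3);
* `hnⱼ` : an element of all sheets of colour `j` has a power in `pⱼ B₁`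
  (`C6Norm.pow_card_mem_map_comap`, Galois action);
* discriminants: `discr bℭ ∣ discr bC ^ d ≠ 0` (`A3.H492`).

Conclusion `sheets_comaximal_of_charts`: different sheets of the same colour are comaximal
in `B₁`; `h_uni_of_comaximal`: the hypothesis `h_uni_fin` / `h_uni_inf` of `H12.wallG`.
-/

set_option autoImplicit false

namespace Fermat.Agent.A2.H733

open Module

section MapLemmas

variable {X Y : Type*} [CommRing X] [CommRing Y] (f : X →+* Y)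

theorem mem_map_iff_mem_of_ker_le (hf : Function.Surjective f) (I : Ideal X)
    (hk : RingHom.ker f ≤ I) (x : X) : f x ∈ I.map f ↔ x ∈ I := by
  constructor
  · intro h
    have h1 : x ∈ (I.map f).comap f := h
    rw [Ideal.comap_map_of_surjective f hf] at h1
    have h2 : I ⊔ Ideal.comap f ⊥ ≤ I := sup_le le_rfl hk
    exact h2 h1
  · exact fun h => Ideal.mem_map_of_mem f h

theorem isRadical_map_of_ker_le (hf : Function.Surjective f) (I : Ideal X)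
    (hk : RingHom.ker f ≤ I) (hI : I.IsRadical) : (I.map f).IsRadical := by
  intro y hy
  obtain ⟨n, hn⟩ := hy
  obtain ⟨x, rfl⟩ := hf y
  rw [← map_pow, mem_map_iff_mem_of_ker_le f hf I hk] at hn
  exact (mem_map_iff_mem_of_ker_le f hf I hk x).2 (hI ⟨n, hn⟩)

end MapLemmas

section Charts

variable {Λ : Type*} [CommRing Λ] [IsDomain Λ] [IsPrincipalIdealRing Λ]
variable {C : Type*} [CommRing C] [Algebra Λ C]
variable {ℭ : Type*} [CommRing ℭ] [Algebra Λ ℭ] [Algebra C ℭ] [IsScalarTower Λ C ℭ]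
variable {B₀ B₁ : Type*} [CommRing B₀] [CommRing B₁]
variable {ι : Type*} [Fintype ι] [DecidableEq ι]
variable {κ κ' : Type*} [Fintype κ] [DecidableEq κ] [Fintype κ'] [DecidableEq κ']

/-- **C6-BRIDGE, ideal form.**  Different sheets of the same colour are comaximal in the chart of
the cover. -/
theorem sheets_comaximal_of_charts (j : B₀ →+* B₁) (ρ₀ : B₀ →+* C) (ρ₁ : B₁ →+* ℭ)
    (hρ₀ : Function.Surjective ρ₀) (hρ₁ : Function.Surjective ρ₁) (w : B₀)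
    (hker₀ : RingHom.ker ρ₀ = Ideal.span {w}) (hker₁ : RingHom.ker ρ₁ = Ideal.span {j w})
    (hcompat : ∀ b, ρ₁ (j b) = algebraMap C ℭ (ρ₀ b))
    (p₁ p₂ : Ideal B₀) [hp₁ : p₁.IsPrime] [hp₂ : p₂.IsPrime]
    (h₁₂ : ¬ p₁ ≤ p₂) (h₂₁ : ¬ p₂ ≤ p₁)
    (hinf : p₁ ⊓ p₂ = Ideal.span {w}) (hrad : (p₁ ⊔ p₂).IsRadical)
    (Q₁ Q₂ : ι → Ideal B₁)
    (hQ₁ : ∀ s, (Q₁ s).comap j = p₁) (hS₁ : ∀ s (b' : B₁), ∃ b : B₀, b' - j b ∈ Q₁ s)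
    (hQ₂ : ∀ s, (Q₂ s).comap j = p₂) (hS₂ : ∀ s (b' : B₁), ∃ b : B₀, b' - j b ∈ Q₂ s)
    (hred : (⨅ s, Q₁ s) ⊓ (⨅ s, Q₂ s) ≤ Ideal.span {j w})
    (hn₁ : ∀ x ∈ ⨅ s, Q₁ s, ∃ k : ℕ, x ^ k ∈ p₁.map j)
    (hn₂ : ∀ x ∈ ⨅ s, Q₂ s, ∃ k : ℕ, x ^ k ∈ p₂.map j)
    (bC : Basis κ Λ C) (bℭ : Basis κ' Λ ℭ)
    (hrankℭ : Fintype.card κ' = Fintype.card ι * Fintype.card κ)
    (hne : Algebra.discr Λ bC ≠ 0)
    (hdisc : Algebra.discr Λ bℭ ∣ Algebra.discr Λ bC ^ Fintype.card ι) :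
    (∀ s s', s ≠ s' → Q₁ s ⊔ Q₁ s' = ⊤) ∧ (∀ s s', s ≠ s' → Q₂ s ⊔ Q₂ s' = ⊤) := by
  -- `w` lies in both components and in all sheets
  have hw : w ∈ p₁ ⊓ p₂ := by rw [hinf]; exact Ideal.mem_span_singleton_self w
  have hk₁ : RingHom.ker ρ₀ ≤ p₁ := by
    rw [hker₀, Ideal.span_singleton_le_iff_mem]; exact hw.1
  have hk₂ : RingHom.ker ρ₀ ≤ p₂ := by
    rw [hker₀, Ideal.span_singleton_le_iff_mem]; exact hw.2
  have hkQ₁ : ∀ s, RingHom.ker ρ₁ ≤ Q₁ s := by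
    intro s
    rw [hker₁, Ideal.span_singleton_le_iff_mem]
    have : w ∈ (Q₁ s).comap j := by rw [hQ₁ s]; exact hw.1
    exact this
  have hkQ₂ : ∀ s, RingHom.ker ρ₁ ≤ Q₂ s := by
    intro s
    rw [hker₁, Ideal.span_singleton_le_iff_mem]
    have : w ∈ (Q₂ s).comap j := by rw [hQ₂ s]; exact hw.2
    exact this
  -- the special fibre
  set 𝔭₁ : Ideal C := p₁.map ρ₀ with h𝔭₁
  set 𝔭₂ : Ideal C := p₂.map ρ₀ with h𝔭₂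
  have m₁ : ∀ b, ρ₀ b ∈ 𝔭₁ ↔ b ∈ p₁ := mem_map_iff_mem_of_ker_le ρ₀ hρ₀ p₁ hk₁
  have m₂ : ∀ b, ρ₀ b ∈ 𝔭₂ ↔ b ∈ p₂ := mem_map_iff_mem_of_ker_le ρ₀ hρ₀ p₂ hk₂
  have n₁ : ∀ s b', ρ₁ b' ∈ (Q₁ s).map ρ₁ ↔ b' ∈ Q₁ s := fun s =>
    mem_map_iff_mem_of_ker_le ρ₁ hρ₁ (Q₁ s) (hkQ₁ s)
  have n₂ : ∀ s b', ρ₁ b' ∈ (Q₂ s).map ρ₁ ↔ b' ∈ Q₂ s := fun s =>
    mem_map_iff_mem_of_ker_le ρ₁ hρ₁ (Q₂ s) (hkQ₂ s)
  have P₁ : 𝔭₁.IsPrime := Ideal.map_isPrime_of_surjective hρ₀ hk₁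
  have P₂ : 𝔭₂.IsPrime := Ideal.map_isPrime_of_surjective hρ₀ hk₂
  have H₁₂ : ¬ 𝔭₁ ≤ 𝔭₂ := by
    intro h
    apply h₁₂
    intro b hb
    exact (m₂ b).1 (h ((m₁ b).2 hb))
  have H₂₁ : ¬ 𝔭₂ ≤ 𝔭₁ := by
    intro h
    apply h₂₁
    intro b hb
    exact (m₁ b).1 (h ((m₂ b).2 hb))
  have Hinf : 𝔭₁ ⊓ 𝔭₂ = ⊥ := by
    rw [eq_bot_iff]
    intro c hc
    obtain ⟨b, rfl⟩ := hρ₀ c
    have hb : b ∈ p₁ ⊓ p₂ := ⟨(m₁ b).1 hc.1, (m₂ b).1 hc.2⟩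
    rw [hinf, ← hker₀] at hb
    exact hb
  have Hrad : (𝔭₁ ⊔ 𝔭₂).IsRadical := by
    rw [h𝔭₁, h𝔭₂, ← Ideal.map_sup]
    exact isRadical_map_of_ker_le ρ₀ hρ₀ _ (hk₁.trans le_sup_left) hrad
  have Hcomap : ∀ (p : Ideal B₀) (Q : Ideal B₁), RingHom.ker ρ₀ ≤ p → RingHom.ker ρ₁ ≤ Q →
      Q.comap j = p → (Q.map ρ₁).comap (algebraMap C ℭ) = p.map ρ₀ := by
    intro p Q hkp hkQ hQp
    ext c
    obtain ⟨b, rfl⟩ := hρ₀ c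
    rw [Ideal.mem_comap, ← hcompat, mem_map_iff_mem_of_ker_le ρ₁ hρ₁ Q hkQ,
      mem_map_iff_mem_of_ker_le ρ₀ hρ₀ p hkp, ← hQp, Ideal.mem_comap]
  have Hsurj : ∀ (Q : Ideal B₁), (∀ b' : B₁, ∃ b : B₀, b' - j b ∈ Q) →
      ∀ x : ℭ, ∃ c : C, x - algebraMap C ℭ c ∈ Q.map ρ₁ := by
    intro Q hS x
    obtain ⟨b', rfl⟩ := hρ₁ x
    obtain ⟨b, hb⟩ := hS b'
    refine ⟨ρ₀ b, ?_⟩
    rw [← hcompat, ← map_sub]
    exact Ideal.mem_map_of_mem ρ₁ hb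
  have Hred : (⨅ s, (Q₁ s).map ρ₁) ⊓ (⨅ s, (Q₂ s).map ρ₁) = ⊥ := by
    rw [eq_bot_iff]
    intro x hx
    obtain ⟨b', rfl⟩ := hρ₁ x
    have h1 : b' ∈ (⨅ s, Q₁ s) ⊓ (⨅ s, Q₂ s) := by
      refine ⟨?_, ?_⟩
      · rw [SetLike.mem_coe, Ideal.mem_iInf]
        intro s
        exact (n₁ s b').1 ((Ideal.mem_iInf.1 hx.1) s)
      · rw [SetLike.mem_coe, Ideal.mem_iInf]
        intro s
        exact (n₂ s b').1 ((Ideal.mem_iInf.1 hx.2) s)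
    have h2 := hred h1
    rw [← hker₁] at h2
    exact h2
  have Hnorm : ∀ (p : Ideal B₀) (Q : ι → Ideal B₁), (∀ s, RingHom.ker ρ₁ ≤ Q s) →
      (∀ x ∈ ⨅ s, Q s, ∃ k : ℕ, x ^ k ∈ p.map j) →
      ∀ x ∈ ⨅ s, (Q s).map ρ₁, ∃ k : ℕ, x ^ k ∈ (p.map ρ₀).map (algebraMap C ℭ) := by
    intro p Q hkQ hn x hx
    obtain ⟨b', rfl⟩ := hρ₁ x
    have h1 : b' ∈ ⨅ s, Q s := by
      rw [Ideal.mem_iInf]
      intro s
      exact (mem_map_iff_mem_of_ker_le ρ₁ hρ₁ (Q s) (hkQ s) b').1 ((Ideal.mem_iInf.1 hx) s)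
    obtain ⟨k, hk⟩ := hn b' h1
    refine ⟨k, ?_⟩
    have h2 : (p.map ρ₀).map (algebraMap C ℭ) = (p.map j).map ρ₁ := by
      rw [Ideal.map_map, Ideal.map_map]
      congr 1
      ext b
      exact (hcompat b).symm
    rw [h2, ← map_pow]
    exact Ideal.mem_map_of_mem ρ₁ hk
  obtain ⟨r₁, r₂⟩ := sheets_comaximal 𝔭₁ 𝔭₂ H₁₂ H₂₁ Hinf Hrad
    (fun s => (Q₁ s).map ρ₁) (fun s => (Q₂ s).map ρ₁)
    (fun s => Hcomap p₁ (Q₁ s) hk₁ (hkQ₁ s) (hQ₁ s)) (fun s => Hsurj (Q₁ s) (hS₁ s))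
    (fun s => Hcomap p₂ (Q₂ s) hk₂ (hkQ₂ s) (hQ₂ s)) (fun s => Hsurj (Q₂ s) (hS₂ s))
    Hred (Hnorm p₁ Q₁ hkQ₁ hn₁) (Hnorm p₂ Q₂ hkQ₂ hn₂) bC bℭ hrankℭ hne hdisc
  have back : ∀ (Q Q' : Ideal B₁), RingHom.ker ρ₁ ≤ Q → Q.map ρ₁ ⊔ Q'.map ρ₁ = ⊤ →
      Q ⊔ Q' = ⊤ := by
    intro Q Q' hkQ h
    rw [← Ideal.map_sup] at h
    rw [Ideal.eq_top_iff_one]
    have h1 : ρ₁ 1 ∈ (Q ⊔ Q').map ρ₁ := by rw [h]; trivial
    exact (mem_map_iff_mem_of_ker_le ρ₁ hρ₁ (Q ⊔ Q') (hkQ.trans le_sup_left) 1).1 h1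
  exact ⟨fun s s' h => back _ _ (hkQ₁ s) (r₁ s s' h), fun s s' h => back _ _ (hkQ₂ s) (r₂ s s' h)⟩

end Charts

section WallForm

variable {B₁ : Type*} [CommRing B₁] {S : Type*} {Col : Type*}

/-- Comaximality of the sheets of the same colour gives the hypothesis `h_uni` of `H12.wallG`
(with `Q s = H12.chartIdeal chart (M s)`). -/
theorem h_uni_of_comaximal (Q : S → Ideal B₁) (col : S → Col)
    (hcomax : ∀ s t, col s = col t → s ≠ t → Q s ⊔ Q t = ⊤) :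
    ∀ 𝔫 : Ideal B₁, 𝔫.IsMaximal → ∀ s t, col s = col t → Q s ≤ 𝔫 → Q t ≤ 𝔫 → s = t := by
  intro 𝔫 h𝔫 s t hst hs ht
  by_contra hne
  have h1 := hcomax s t hst hne
  have h2 : Q s ⊔ Q t ≤ 𝔫 := sup_le hs ht
  rw [h1] at h2
  exact h𝔫.ne_top (top_le_iff.1 h2)

end WallForm

end Fermat.Agent.A2.H733
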