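import Mathlib.RingTheory.Invariant.Basic
import Mathlib.RingTheory.Ideal.Quotient.Operations
import Mathlib.Algebra.Polynomial.Monic

/-!
# Route G, C6-BRIDGE, part 2: `hnorm` from a finite group action

`A → B` with a finite group `G` acting on `B`, `B^G = A` (`Algebra.IsInvariant A B G`).  If `I` is
a `G`-stable ideal of `B`, then `x ^ #G ∈ (I ∩ A) B` for every `x ∈ I`
(`pow_card_mem_map_comap`): the characteristic polynomial `∏ (X - g • x)` of `x` has its lower
coefficients in `I ∩ A`.

This gives the hypothesis `hnorm` of `H973.ker_sup_ker_eq_top_of_discr_dvd`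
("a function on the cover vanishing on all sheets of colour 2 has a power in `𝔭₂ ℭ`") when the
Galois group permutes the sheets of colour 2.

Mathlib-only.
-/

set_option autoImplicit false

namespace Fermat.Agent.A2.H733

open Polynomial MulSemiringAction

section Norm

variable (A : Type*) {B : Type*} [CommRing A] [CommRing B] [Algebra A B]
variable (G : Type*) [Group G] [Fintype G] [MulSemiringAction G B]

omit [Algebra A B] in
theorem natDegree_charpoly [Nontrivial B] (x : B) :
    (charpoly G x).natDegree = Fintype.card G := by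
  rw [charpoly_eq, natDegree_prod_of_monic _ _ (fun g _ => monic_X_sub_C (g • x))]
  simp

omit [Algebra A B] in
/-- The lower coefficients of the characteristic polynomial of an element of a `G`-stable ideal
lie in the ideal. -/
theorem coeff_charpoly_mem (I : Ideal B) (hI : ∀ g : G, ∀ x ∈ I, g • x ∈ I) (x : B) (hx : x ∈ I)
    (j : ℕ) (hj : j < Fintype.card G) : (charpoly G x).coeff j ∈ I := by
  have h1 : (charpoly G x).map (Ideal.Quotient.mk I) = X ^ Fintype.card G := by
    rw [charpoly_eq, Polynomial.map_prod]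
    have : ∀ g : G, (X - C (g • x)).map (Ideal.Quotient.mk I) = X := by
      intro g
      rw [Polynomial.map_sub, map_X, map_C, Ideal.Quotient.eq_zero_iff_mem.2 (hI g x hx), map_zero,
        sub_zero]
    simp [this]
  have h2 := congrArg (fun p => p.coeff j) h1
  simp only [coeff_map, coeff_X_pow] at h2
  rw [if_neg (ne_of_lt hj)] at h2
  exact Ideal.Quotient.eq_zero_iff_mem.1 h2

variable [Algebra.IsInvariant A B G]

/-- **`hnorm`.**  For a `G`-stable ideal `I` of `B` and `x ∈ I`: `x ^ #G ∈ (I ∩ A) B`. -/
theorem pow_card_mem_map_comap (I : Ideal B) (hI : ∀ g : G, ∀ x ∈ I, g • x ∈ I) (x : B)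
    (hx : x ∈ I) :
    x ^ Fintype.card G ∈ (I.comap (algebraMap A B)).map (algebraMap A B) := by
  nontriviality B
  set J := (I.comap (algebraMap A B)).map (algebraMap A B) with hJ
  have hcoeff : ∀ j, j < Fintype.card G → (charpoly G x).coeff j ∈ J := by
    intro j hj
    obtain ⟨a, ha⟩ := Algebra.IsInvariant.isInvariant (A := A) (G := G)
      ((charpoly G x).coeff j) (fun g => smul_coeff_charpoly x j g)
    rw [← ha]
    apply Ideal.mem_map_of_mem
    rw [Ideal.mem_comap, ha]
    exact coeff_charpoly_mem G I hI x hx j hj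
  have h0 := eval_charpoly G x
  rw [(monic_charpoly G x).as_sum, natDegree_charpoly, eval_add, eval_pow, eval_X,
    eval_finsetSum] at h0
  have h1 : x ^ Fintype.card G =
      -∑ i ∈ Finset.range (Fintype.card G), eval x (C ((charpoly G x).coeff i) * X ^ i) :=
    eq_neg_of_add_eq_zero_left h0
  rw [h1]
  refine J.neg_mem (J.sum_mem fun i hi => ?_)
  rw [eval_mul, eval_C, eval_pow, eval_X]
  exact J.mul_mem_right _ (hcoeff i (Finset.mem_range.1 hi))

/-- **`hnorm` for a family of sheets permuted by the group.**  If `G` permutes the ideals `Q i`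
(every `Q i'` receives some `Q i` under each `g`), all of them lying over the same ideal `p` of
`A = B^G`, then every element of `⨅ Q i` has a power in `p B`. -/
theorem exists_pow_mem_map_of_action {ι : Type*} [Nonempty ι] (Q : ι → Ideal B) (p : Ideal A)
    (hQ : ∀ i, (Q i).comap (algebraMap A B) = p)
    (hperm : ∀ (g : G) (i' : ι), ∃ i, ∀ x ∈ Q i, g • x ∈ Q i') :
    ∀ x ∈ ⨅ i, Q i, ∃ k : ℕ, x ^ k ∈ p.map (algebraMap A B) := by
  intro x hx
  refine ⟨Fintype.card G, ?_⟩
  have hstab : ∀ g : G, ∀ y ∈ ⨅ i, Q i, g • y ∈ ⨅ i, Q i := by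
    intro g y hy
    rw [Ideal.mem_iInf]
    intro i'
    obtain ⟨i, hi⟩ := hperm g i'
    exact hi y ((Ideal.mem_iInf.1 hy) i)
  have h1 := pow_card_mem_map_comap A G (⨅ i, Q i) hstab x hx
  have h2 : (⨅ i, Q i).comap (algebraMap A B) = p := by
    rw [Ideal.comap_iInf]
    simp only [hQ, ciInf_const]
  rwa [h2] at h1

end Norm

end Fermat.Agent.A2.H733
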