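import Mathlib.LinearAlgebra.FreeModule.PID
import Mathlib.LinearAlgebra.Dimension.Constructions
import Mathlib.LinearAlgebra.Dimension.Finite
import Mathlib.LinearAlgebra.Dimension.Localization
import Mathlib.LinearAlgebra.Dimension.Free
import Mathlib.LinearAlgebra.FiniteDimensional.Basic
import Mathlib.RingTheory.Ideal.GoingUp
import Mathlib.RingTheory.Ideal.Quotient.Operations
import Mathlib.Algebra.Module.Torsion.Free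

/-!
# Route G, C6-BRIDGE, part 1: the two components of a reduced finite free algebra over a PID

`Λ` a PID, `C` a finite free `Λ`-algebra, `𝔭₁ 𝔭₂` incomparable prime ideals of `C` with
`𝔭₁ ⊓ 𝔭₂ = ⊥` (the special fibre `C = B / w B` of a semistable chart with its two components).

* `algebraMap_mem_imp_eq_zero` : both components dominate `Spec Λ`;
* `isTorsionFree_quotient`, `free_quotient` : `C ⧸ 𝔭ᵢ` is a free `Λ`-module;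
* `finrank_quotient_add_finrank_quotient` : `rank (C ⧸ 𝔭₁) + rank (C ⧸ 𝔭₂) = rank C`
  (the hypothesis `hrankC` of `H973.ker_sup_ker_eq_top_of_discr_dvd`).

Mathlib-only.
-/

set_option autoImplicit false

namespace Fermat.Agent.A2.H733

open Module

section TwoComponents

variable (Λ : Type*) [CommRing Λ] [IsDomain Λ]
variable {C : Type*} [CommRing C] [Algebra Λ C] [Module.Free Λ C]
variable (𝔭₁ 𝔭₂ : Ideal C)

include 𝔭₂ in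
/-- A component of a reduced free algebra dominates the base. -/
theorem algebraMap_mem_imp_eq_zero [𝔭₁.IsPrime] (h₂₁ : ¬ 𝔭₂ ≤ 𝔭₁) (hinf : 𝔭₁ ⊓ 𝔭₂ = ⊥)
    (a : Λ) (ha : algebraMap Λ C a ∈ 𝔭₁) : a = 0 := by
  obtain ⟨e, he₂, he₁⟩ := Set.not_subset.1 h₂₁
  have h1 : a • e ∈ 𝔭₁ ⊓ 𝔭₂ := by
    rw [Algebra.smul_def]
    exact ⟨𝔭₁.mul_mem_right _ ha, 𝔭₂.mul_mem_left _ he₂⟩
  rw [hinf, Ideal.mem_bot] at h1
  rcases smul_eq_zero.1 h1 with h | h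
  · exact h
  · exact absurd (h ▸ 𝔭₁.zero_mem) he₁

include 𝔭₂ in
/-- The coordinate ring of a component is torsion free over the base. -/
theorem isTorsionFree_quotient [𝔭₁.IsPrime] (h₂₁ : ¬ 𝔭₂ ≤ 𝔭₁) (hinf : 𝔭₁ ⊓ 𝔭₂ = ⊥) :
    Module.IsTorsionFree Λ (C ⧸ 𝔭₁) := by
  refine Module.IsTorsionFree.of_smul_eq_zero fun a z hz => ?_
  obtain ⟨c, rfl⟩ := Ideal.Quotient.mk_surjective z
  have h1 : algebraMap Λ C a * c ∈ 𝔭₁ := by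
    rw [← Ideal.Quotient.eq_zero_iff_mem, ← Algebra.smul_def]
    exact hz
  rcases Ideal.IsPrime.mem_or_mem ‹_› h1 with h | h
  · exact Or.inl (algebraMap_mem_imp_eq_zero Λ 𝔭₁ 𝔭₂ h₂₁ hinf a h)
  · exact Or.inr (Ideal.Quotient.eq_zero_iff_mem.2 h)

variable [IsPrincipalIdealRing Λ] [Module.Finite Λ C]

include 𝔭₂ in
/-- The coordinate ring of a component is free over the base. -/
theorem free_quotient [𝔭₁.IsPrime] (h₂₁ : ¬ 𝔭₂ ≤ 𝔭₁) (hinf : 𝔭₁ ⊓ 𝔭₂ = ⊥) :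
    Module.Free Λ (C ⧸ 𝔭₁) := by
  have := isTorsionFree_quotient Λ 𝔭₁ 𝔭₂ h₂₁ hinf
  have : Module.Finite Λ (C ⧸ 𝔭₁) :=
    Module.Finite.of_surjective (Ideal.Quotient.mkₐ Λ 𝔭₁).toLinearMap
      (Ideal.Quotient.mkₐ_surjective Λ 𝔭₁)
  infer_instance

omit [Module.Free Λ C] [IsPrincipalIdealRing Λ] in
/-- Some nonzero element of the base lies in `𝔭₁ ⊔ 𝔭₂`. -/
theorem exists_ne_zero_algebraMap_mem_sup [𝔭₁.IsPrime] (h₂₁ : ¬ 𝔭₂ ≤ 𝔭₁) :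
    ∃ a : Λ, a ≠ 0 ∧ algebraMap Λ C a ∈ 𝔭₁ ⊔ 𝔭₂ := by
  obtain ⟨e, he₂, he₁⟩ := Set.not_subset.1 h₂₁
  have : Algebra.IsIntegral Λ (C ⧸ 𝔭₁) := by
    have : Module.Finite Λ (C ⧸ 𝔭₁) :=
      Module.Finite.of_surjective (Ideal.Quotient.mkₐ Λ 𝔭₁).toLinearMap
        (Ideal.Quotient.mkₐ_surjective Λ 𝔭₁)
    infer_instance
  have hne : (Ideal.Quotient.mk 𝔭₁ e) ≠ 0 := fun h => he₁ (Ideal.Quotient.eq_zero_iff_mem.1 h)
  have h1 := Ideal.comap_ne_bot_of_integral_mem (R := Λ) (I := 𝔭₂.map (Ideal.Quotient.mk 𝔭₁)) hne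
    (Ideal.mem_map_of_mem _ he₂) (Algebra.IsIntegral.isIntegral _)
  obtain ⟨a, ha, ha0⟩ := Submodule.exists_mem_ne_zero_of_ne_bot h1
  refine ⟨a, ha0, ?_⟩
  rw [Ideal.mem_comap] at ha
  have h2 : algebraMap Λ (C ⧸ 𝔭₁) a = Ideal.Quotient.mk 𝔭₁ (algebraMap Λ C a) := rfl
  rw [h2, Ideal.mem_map_iff_of_surjective _ Ideal.Quotient.mk_surjective] at ha
  obtain ⟨u, hu, huq⟩ := ha
  have h3 : algebraMap Λ C a - u ∈ 𝔭₁ := by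
    rw [← Ideal.Quotient.eq_zero_iff_mem, map_sub, huq, sub_self]
  have h4 : algebraMap Λ C a = (algebraMap Λ C a - u) + u := by ring
  rw [h4]
  exact Submodule.add_mem _ (Ideal.mem_sup_left h3) (Ideal.mem_sup_right hu)

/-- The diagonal map of a two-component algebra. -/
noncomputable def diagTwo : C →ₗ[Λ] (C ⧸ 𝔭₁) × (C ⧸ 𝔭₂) :=
  LinearMap.prod (Ideal.Quotient.mkₐ Λ 𝔭₁).toLinearMap (Ideal.Quotient.mkₐ Λ 𝔭₂).toLinearMap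

omit [IsDomain Λ] [Module.Free Λ C] [IsPrincipalIdealRing Λ] [Module.Finite Λ C] in
theorem diagTwo_injective (hinf : 𝔭₁ ⊓ 𝔭₂ = ⊥) : Function.Injective (diagTwo Λ 𝔭₁ 𝔭₂) := by
  rw [injective_iff_map_eq_zero]
  intro c hc
  have h1 : Ideal.Quotient.mk 𝔭₁ c = 0 := congrArg Prod.fst hc
  have h2 : Ideal.Quotient.mk 𝔭₂ c = 0 := congrArg Prod.snd hc
  have h3 : c ∈ 𝔭₁ ⊓ 𝔭₂ :=
    ⟨Ideal.Quotient.eq_zero_iff_mem.1 h1, Ideal.Quotient.eq_zero_iff_mem.1 h2⟩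
  rwa [hinf, Ideal.mem_bot] at h3

/-- **Rank additivity**: `rank (C ⧸ 𝔭₁) + rank (C ⧸ 𝔭₂) = rank C`. -/
theorem finrank_quotient_add_finrank_quotient [𝔭₁.IsPrime] [𝔭₂.IsPrime]
    (h₁₂ : ¬ 𝔭₁ ≤ 𝔭₂) (h₂₁ : ¬ 𝔭₂ ≤ 𝔭₁) (hinf : 𝔭₁ ⊓ 𝔭₂ = ⊥) :
    finrank Λ (C ⧸ 𝔭₁) + finrank Λ (C ⧸ 𝔭₂) = finrank Λ C := by
  have hf1 : Module.Finite Λ (C ⧸ 𝔭₁) :=
    Module.Finite.of_surjective (Ideal.Quotient.mkₐ Λ 𝔭₁).toLinearMap
      (Ideal.Quotient.mkₐ_surjective Λ 𝔭₁)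
  have hf2 : Module.Finite Λ (C ⧸ 𝔭₂) :=
    Module.Finite.of_surjective (Ideal.Quotient.mkₐ Λ 𝔭₂).toLinearMap
      (Ideal.Quotient.mkₐ_surjective Λ 𝔭₂)
  have hfr1 := free_quotient Λ 𝔭₁ 𝔭₂ h₂₁ hinf
  have hfr2 := free_quotient Λ 𝔭₂ 𝔭₁ h₁₂ (by rwa [inf_comm])
  set D := diagTwo Λ 𝔭₁ 𝔭₂ with hD
  have hinj := diagTwo_injective Λ 𝔭₁ 𝔭₂ hinf
  have h1 := Submodule.finrank_quotient_add_finrank (LinearMap.range D)
  have h2 : finrank Λ (LinearMap.range D) = finrank Λ C :=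
    (LinearEquiv.ofInjective D hinj).symm.finrank_eq
  have h3 : finrank Λ (((C ⧸ 𝔭₁) × (C ⧸ 𝔭₂)) ⧸ LinearMap.range D) = 0 := by
    rw [Module.finrank_eq_zero_iff]
    obtain ⟨a, ha0, ha⟩ := exists_ne_zero_algebraMap_mem_sup Λ 𝔭₁ 𝔭₂ h₂₁
    obtain ⟨u₁, hu₁, u₂, hu₂, hu⟩ := Submodule.mem_sup.1 ha
    intro z
    obtain ⟨⟨z₁, z₂⟩, rfl⟩ := Submodule.mkQ_surjective _ z
    obtain ⟨x₁, rfl⟩ := Ideal.Quotient.mk_surjective z₁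
    obtain ⟨x₂, rfl⟩ := Ideal.Quotient.mk_surjective z₂
    refine ⟨a, ha0, ?_⟩
    rw [← map_smul, Submodule.mkQ_apply, Submodule.Quotient.mk_eq_zero]
    refine ⟨x₁ * u₂ + x₂ * u₁, ?_⟩
    apply Prod.ext
    · change Ideal.Quotient.mk 𝔭₁ (x₁ * u₂ + x₂ * u₁) = a • Ideal.Quotient.mk 𝔭₁ x₁
      have e1 : algebraMap Λ (C ⧸ 𝔭₁) a = Ideal.Quotient.mk 𝔭₁ (algebraMap Λ C a) := rfl
      rw [Algebra.smul_def, e1, ← map_mul, Ideal.Quotient.eq]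
      have : x₁ * u₂ + x₂ * u₁ - algebraMap Λ C a * x₁ = (x₂ - x₁) * u₁ := by
        rw [← hu]; ring
      rw [this]
      exact 𝔭₁.mul_mem_left _ hu₁
    · change Ideal.Quotient.mk 𝔭₂ (x₁ * u₂ + x₂ * u₁) = a • Ideal.Quotient.mk 𝔭₂ x₂
      have e2 : algebraMap Λ (C ⧸ 𝔭₂) a = Ideal.Quotient.mk 𝔭₂ (algebraMap Λ C a) := rfl
      rw [Algebra.smul_def, e2, ← map_mul, Ideal.Quotient.eq]
      have : x₁ * u₂ + x₂ * u₁ - algebraMap Λ C a * x₂ = (x₁ - x₂) * u₂ := by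
        rw [← hu]; ring
      rw [this]
      exact 𝔭₂.mul_mem_left _ hu₂
  rw [h2, h3, zero_add, Module.finrank_prod] at h1
  exact h1.symm

end TwoComponents

end Fermat.Agent.A2.H733
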