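import Fermat.Agent.A2.H973.Sheets
import Fermat.Agent.A2.H733.C6Rank

/-!
# Route G, C6-BRIDGE, part 3: sheets of the same colour are disjoint (ideal form)

Special-fibre form of COUNT with *primitive* hypotheses on the sheets.

`Λ` a PID (`k[x]`), `C` the special fibre of the base chart with its two components `𝔭₁, 𝔭₂`
(incomparable primes, `𝔭₁ ⊓ 𝔭₂ = ⊥`, `𝔭₁ ⊔ 𝔭₂` radical), `ℭ` the special fibre of the cover chart,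
a `C`-algebra, with sheets `𝔮₁ s`, `𝔮₂ s` (`s : ι`, `#ι = d`) of the two colours:

* each sheet maps isomorphically onto its component
  (`(𝔮ⱼ s).comap = 𝔭ⱼ`, `∀ x, ∃ c, x - c ∈ 𝔮ⱼ s`);
* the cover is reduced without other components (`(⨅ 𝔮₁) ⊓ (⨅ 𝔮₂) = ⊥`);
* `hnormⱼ` : an element of all sheets of colour `j` has a power in `𝔭ⱼ ℭ`
  (from the Galois action, `C6Norm.pow_card_mem_map_comap`);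
* bases `bC`, `bℭ` with `rank ℭ = d · rank C`, `discr bC ≠ 0`, `discr bℭ ∣ discr bC ^ d`
  (`A3.H492.exists_bases_associated_discr`).

Conclusion (`sheets_comaximal`): two different sheets of the same colour are comaximal.
Everything else needed by `H973.ker_sup_ker_eq_top_of_discr_dvd` (`hrankC`, freeness of the
components, the maps `ψ`, `hψ₁`, `hinj`) is derived here.
-/

set_option autoImplicit false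

namespace Fermat.Agent.A2.H733

open Module

section Sheet

variable {Λ : Type*} [CommRing Λ] {C ℭ : Type*} [CommRing C] [CommRing ℭ] [Algebra Λ C]
  [Algebra Λ ℭ] [Algebra C ℭ] [IsScalarTower Λ C ℭ]

/-- The isomorphism from a component to a sheet over it. -/
noncomputable def compEquiv (𝔭 : Ideal C) (𝔮 : Ideal ℭ) (hcomap : 𝔮.comap (algebraMap C ℭ) = 𝔭)
    (hsurj : ∀ x : ℭ, ∃ c : C, x - algebraMap C ℭ c ∈ 𝔮) : (C ⧸ 𝔭) ≃ₐ[Λ] (ℭ ⧸ 𝔮) :=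
  AlgEquiv.ofBijective
    (Ideal.quotientMapₐ 𝔮 (IsScalarTower.toAlgHom Λ C ℭ) (le_of_eq hcomap.symm)) (by
    constructor
    · rw [injective_iff_map_eq_zero]
      intro z hz
      obtain ⟨a, rfl⟩ := Ideal.Quotient.mk_surjective z
      have h1 : Ideal.quotientMapₐ 𝔮 (IsScalarTower.toAlgHom Λ C ℭ) (le_of_eq hcomap.symm)
          (Ideal.Quotient.mk 𝔭 a) = Ideal.Quotient.mk 𝔮 (algebraMap C ℭ a) := rfl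
      rw [h1, Ideal.Quotient.eq_zero_iff_mem] at hz
      rw [Ideal.Quotient.eq_zero_iff_mem, ← hcomap]
      exact hz
    · intro z
      obtain ⟨b, rfl⟩ := Ideal.Quotient.mk_surjective z
      obtain ⟨a, ha⟩ := hsurj b
      refine ⟨Ideal.Quotient.mk 𝔭 a, ?_⟩
      have h1 : Ideal.quotientMapₐ 𝔮 (IsScalarTower.toAlgHom Λ C ℭ) (le_of_eq hcomap.symm)
          (Ideal.Quotient.mk 𝔭 a) = Ideal.Quotient.mk 𝔮 (algebraMap C ℭ a) := rfl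
      rw [h1]
      exact (Ideal.Quotient.eq.2 ha).symm)

theorem compEquiv_mk (𝔭 : Ideal C) (𝔮 : Ideal ℭ) (hcomap : 𝔮.comap (algebraMap C ℭ) = 𝔭)
    (hsurj : ∀ x : ℭ, ∃ c : C, x - algebraMap C ℭ c ∈ 𝔮) (c : C) :
    compEquiv (Λ := Λ) 𝔭 𝔮 hcomap hsurj (Ideal.Quotient.mk 𝔭 c) =
      Ideal.Quotient.mk 𝔮 (algebraMap C ℭ c) := rfl

/-- The restriction of functions on the cover to a sheet, read on the component below. -/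
noncomputable def sheetMap (𝔭 : Ideal C) (𝔮 : Ideal ℭ) (hcomap : 𝔮.comap (algebraMap C ℭ) = 𝔭)
    (hsurj : ∀ x : ℭ, ∃ c : C, x - algebraMap C ℭ c ∈ 𝔮) : ℭ →ₐ[Λ] C ⧸ 𝔭 :=
  ((compEquiv (Λ := Λ) 𝔭 𝔮 hcomap hsurj).symm : (ℭ ⧸ 𝔮) →ₐ[Λ] (C ⧸ 𝔭)).comp
    (Ideal.Quotient.mkₐ Λ 𝔮)

theorem sheetMap_algebraMap (𝔭 : Ideal C) (𝔮 : Ideal ℭ)
    (hcomap : 𝔮.comap (algebraMap C ℭ) = 𝔭)
    (hsurj : ∀ x : ℭ, ∃ c : C, x - algebraMap C ℭ c ∈ 𝔮) (c : C) :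
    sheetMap (Λ := Λ) 𝔭 𝔮 hcomap hsurj (algebraMap C ℭ c) = Ideal.Quotient.mk 𝔭 c := by
  change (compEquiv (Λ := Λ) 𝔭 𝔮 hcomap hsurj).symm (Ideal.Quotient.mk 𝔮 (algebraMap C ℭ c)) = _
  rw [← compEquiv_mk (Λ := Λ) 𝔭 𝔮 hcomap hsurj c, AlgEquiv.symm_apply_apply]

theorem sheetMap_eq_zero_iff (𝔭 : Ideal C) (𝔮 : Ideal ℭ)
    (hcomap : 𝔮.comap (algebraMap C ℭ) = 𝔭)
    (hsurj : ∀ x : ℭ, ∃ c : C, x - algebraMap C ℭ c ∈ 𝔮) (x : ℭ) :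
    sheetMap (Λ := Λ) 𝔭 𝔮 hcomap hsurj x = 0 ↔ x ∈ 𝔮 := by
  change (compEquiv (Λ := Λ) 𝔭 𝔮 hcomap hsurj).symm (Ideal.Quotient.mk 𝔮 x) = 0 ↔ _
  rw [EmbeddingLike.map_eq_zero_iff, Ideal.Quotient.eq_zero_iff_mem]

theorem ker_sheetMap (𝔭 : Ideal C) (𝔮 : Ideal ℭ) (hcomap : 𝔮.comap (algebraMap C ℭ) = 𝔭)
    (hsurj : ∀ x : ℭ, ∃ c : C, x - algebraMap C ℭ c ∈ 𝔮) :
    RingHom.ker (sheetMap (Λ := Λ) 𝔭 𝔮 hcomap hsurj).toRingHom = 𝔮 := by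
  ext x
  rw [RingHom.mem_ker]
  exact sheetMap_eq_zero_iff (Λ := Λ) 𝔭 𝔮 hcomap hsurj x

end Sheet

section Main

variable {Λ : Type*} [CommRing Λ] [IsDomain Λ] [IsPrincipalIdealRing Λ]
variable {C : Type*} [CommRing C] [Algebra Λ C]
variable {ℭ : Type*} [CommRing ℭ] [Algebra Λ ℭ] [Algebra C ℭ] [IsScalarTower Λ C ℭ]
variable {ι : Type*} [Fintype ι] [DecidableEq ι]
variable {κ κ' : Type*} [Fintype κ] [DecidableEq κ] [Fintype κ'] [DecidableEq κ']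

/-- One colour: the sheets of colour 2 are pairwise comaximal. -/
theorem sheets_comaximal_snd (𝔭₁ 𝔭₂ : Ideal C) [𝔭₁.IsPrime] [𝔭₂.IsPrime]
    (h₁₂ : ¬ 𝔭₁ ≤ 𝔭₂) (h₂₁ : ¬ 𝔭₂ ≤ 𝔭₁)
    (hinf : 𝔭₁ ⊓ 𝔭₂ = ⊥) (hrad : (𝔭₁ ⊔ 𝔭₂).IsRadical)
    (𝔮₁ 𝔮₂ : ι → Ideal ℭ)
    (hcomap₁ : ∀ s, (𝔮₁ s).comap (algebraMap C ℭ) = 𝔭₁)
    (hsurj₁ : ∀ s (x : ℭ), ∃ c : C, x - algebraMap C ℭ c ∈ 𝔮₁ s)
    (hcomap₂ : ∀ s, (𝔮₂ s).comap (algebraMap C ℭ) = 𝔭₂)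
    (hsurj₂ : ∀ s (x : ℭ), ∃ c : C, x - algebraMap C ℭ c ∈ 𝔮₂ s)
    (hred : (⨅ s, 𝔮₁ s) ⊓ (⨅ s, 𝔮₂ s) = ⊥)
    (hnorm₂ : ∀ x ∈ ⨅ s, 𝔮₂ s, ∃ k : ℕ, x ^ k ∈ 𝔭₂.map (algebraMap C ℭ))
    (bC : Basis κ Λ C) (bℭ : Basis κ' Λ ℭ)
    (hrankℭ : Fintype.card κ' = Fintype.card ι * Fintype.card κ)
    (hne : Algebra.discr Λ bC ≠ 0)
    (hdisc : Algebra.discr Λ bℭ ∣ Algebra.discr Λ bC ^ Fintype.card ι)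
    (s s' : ι) (hss' : s ≠ s') : 𝔮₂ s ⊔ 𝔮₂ s' = ⊤ := by
  have hfreeC : Module.Free Λ C := Module.Free.of_basis bC
  have hfinC : Module.Finite Λ C := Module.Finite.of_basis bC
  have hfr1 : Module.Free Λ (C ⧸ 𝔭₁) := free_quotient Λ 𝔭₁ 𝔭₂ h₂₁ hinf
  have hfr2 : Module.Free Λ (C ⧸ 𝔭₂) := free_quotient Λ 𝔭₂ 𝔭₁ h₁₂ (by rwa [inf_comm])
  have hrankC : finrank Λ (C ⧸ 𝔭₁) + finrank Λ (C ⧸ 𝔭₂) = Fintype.card κ := by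
    rw [finrank_quotient_add_finrank_quotient Λ 𝔭₁ 𝔭₂ h₁₂ h₂₁ hinf, Module.finrank_eq_card_basis bC]
  let ψ₁ : ι → ℭ →ₐ[Λ] C ⧸ 𝔭₁ := fun t => sheetMap 𝔭₁ (𝔮₁ t) (hcomap₁ t) (hsurj₁ t)
  let ψ₂ : ι → ℭ →ₐ[Λ] C ⧸ 𝔭₂ := fun t => sheetMap 𝔭₂ (𝔮₂ t) (hcomap₂ t) (hsurj₂ t)
  have hψ₁ : ∀ t c, ψ₁ t (algebraMap C ℭ c) = Ideal.Quotient.mk 𝔭₁ c := fun t c =>
    sheetMap_algebraMap 𝔭₁ (𝔮₁ t) (hcomap₁ t) (hsurj₁ t) c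
  have hinj : ∀ x : ℭ, (∀ t, ψ₁ t x = 0) → (∀ t, ψ₂ t x = 0) → x = 0 := by
    intro x h1 h2
    have hx : x ∈ (⨅ t, 𝔮₁ t) ⊓ (⨅ t, 𝔮₂ t) := by
      refine ⟨?_, ?_⟩
      · rw [SetLike.mem_coe, Ideal.mem_iInf]
        exact fun t => (sheetMap_eq_zero_iff 𝔭₁ (𝔮₁ t) (hcomap₁ t) (hsurj₁ t) x).1 (h1 t)
      · rw [SetLike.mem_coe, Ideal.mem_iInf]
        exact fun t => (sheetMap_eq_zero_iff 𝔭₂ (𝔮₂ t) (hcomap₂ t) (hsurj₂ t) x).1 (h2 t)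
    rwa [hred, Ideal.mem_bot] at hx
  have hnorm : ∀ x : ℭ, (∀ t, ψ₂ t x = 0) → ∃ k : ℕ, x ^ k ∈ 𝔭₂.map (algebraMap C ℭ) := by
    intro x h2
    apply hnorm₂
    rw [Ideal.mem_iInf]
    exact fun t => (sheetMap_eq_zero_iff 𝔭₂ (𝔮₂ t) (hcomap₂ t) (hsurj₂ t) x).1 (h2 t)
  have key := Fermat.Agent.A2.H973.ker_sup_ker_eq_top_of_discr_dvd 𝔭₁ 𝔭₂ hinf hrad bC bℭ hrankC
    hrankℭ ψ₁ ψ₂ hψ₁ hinj hnorm hne hdisc s s' hss'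
  rw [ker_sheetMap 𝔭₂ (𝔮₂ s) (hcomap₂ s) (hsurj₂ s),
    ker_sheetMap 𝔭₂ (𝔮₂ s') (hcomap₂ s') (hsurj₂ s')] at key
  exact key

/-- **COUNT, ideal form, primitive hypotheses.**  Two different sheets of the same colour are
comaximal. -/
theorem sheets_comaximal (𝔭₁ 𝔭₂ : Ideal C) [𝔭₁.IsPrime] [𝔭₂.IsPrime]
    (h₁₂ : ¬ 𝔭₁ ≤ 𝔭₂) (h₂₁ : ¬ 𝔭₂ ≤ 𝔭₁)
    (hinf : 𝔭₁ ⊓ 𝔭₂ = ⊥) (hrad : (𝔭₁ ⊔ 𝔭₂).IsRadical)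
    (𝔮₁ 𝔮₂ : ι → Ideal ℭ)
    (hcomap₁ : ∀ s, (𝔮₁ s).comap (algebraMap C ℭ) = 𝔭₁)
    (hsurj₁ : ∀ s (x : ℭ), ∃ c : C, x - algebraMap C ℭ c ∈ 𝔮₁ s)
    (hcomap₂ : ∀ s, (𝔮₂ s).comap (algebraMap C ℭ) = 𝔭₂)
    (hsurj₂ : ∀ s (x : ℭ), ∃ c : C, x - algebraMap C ℭ c ∈ 𝔮₂ s)
    (hred : (⨅ s, 𝔮₁ s) ⊓ (⨅ s, 𝔮₂ s) = ⊥)
    (hnorm₁ : ∀ x ∈ ⨅ s, 𝔮₁ s, ∃ k : ℕ, x ^ k ∈ 𝔭₁.map (algebraMap C ℭ))
    (hnorm₂ : ∀ x ∈ ⨅ s, 𝔮₂ s, ∃ k : ℕ, x ^ k ∈ 𝔭₂.map (algebraMap C ℭ))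
    (bC : Basis κ Λ C) (bℭ : Basis κ' Λ ℭ)
    (hrankℭ : Fintype.card κ' = Fintype.card ι * Fintype.card κ)
    (hne : Algebra.discr Λ bC ≠ 0)
    (hdisc : Algebra.discr Λ bℭ ∣ Algebra.discr Λ bC ^ Fintype.card ι) :
    (∀ s s', s ≠ s' → 𝔮₁ s ⊔ 𝔮₁ s' = ⊤) ∧ (∀ s s', s ≠ s' → 𝔮₂ s ⊔ 𝔮₂ s' = ⊤) := by
  refine ⟨fun s s' hss' => ?_, fun s s' hss' => ?_⟩
  · exact sheets_comaximal_snd 𝔭₂ 𝔭₁ h₂₁ h₁₂ (by rwa [inf_comm]) (by rwa [sup_comm]) 𝔮₂ 𝔮₁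
      hcomap₂ hsurj₂ hcomap₁ hsurj₁ (by rwa [inf_comm]) hnorm₁ bC bℭ hrankℭ hne hdisc s s' hss'
  · exact sheets_comaximal_snd 𝔭₁ 𝔭₂ h₁₂ h₂₁ hinf hrad 𝔮₁ 𝔮₂ hcomap₁ hsurj₁ hcomap₂ hsurj₂ hred
      hnorm₂ bC bℭ hrankℭ hne hdisc s s' hss'

end Main

end Fermat.Agent.A2.H733
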