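import Fermat.Agent.A2.H12.WallG
import Fermat.Agent.A2.H733.C6Bridge

/-!
# Route G, C6-BRIDGE, part 5: the hypothesis `h_uni_fin` / `h_uni_inf` of `H12.wallG`

`h_uni_of_charts` has VERBATIM the conclusion `h_uni_fin` of `H12.wallG` for a chart
`B' : Subalgebra R L` of the cover with sheets `M s`, from the primitive hypotheses of
`sheets_comaximal_of_charts` for the ideals `Q s = H12.chartIdeal B' (M s)`:

* `B₀ → B'` the base chart with its two components `p₁, p₂`;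
* the sheets of colour `cⱼ` are enumerated by `eⱼ : ι → S` (`ι = Γ` when the Galois group acts
  simply transitively on the sheets of each colour);
* `M (eⱼ i) ∩ B₀ = pⱼ`, `B' = B₀ + M (eⱼ i) ∩ B'`, cover reduced, `hnⱼ`, discriminants.
-/

set_option autoImplicit false

namespace Fermat.Agent.A2.H733

open Module Fermat.Agent.A2.H12

variable {R : Type*} [CommRing R] {L : Type*} [Field L] [Algebra R L]
variable {Λ : Type*} [CommRing Λ] [IsDomain Λ] [IsPrincipalIdealRing Λ]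
variable {C : Type*} [CommRing C] [Algebra Λ C]
variable {ℭ : Type*} [CommRing ℭ] [Algebra Λ ℭ] [Algebra C ℭ] [IsScalarTower Λ C ℭ]
variable {B₀ : Type*} [CommRing B₀]
variable {ι : Type*} [Fintype ι] [DecidableEq ι]
variable {κ κ' : Type*} [Fintype κ] [DecidableEq κ] [Fintype κ'] [DecidableEq κ']
variable {S Col : Type*}

/-- **C6 (COUNT) in the form consumed by `H12.wallG`.** -/
theorem h_uni_of_charts (B' : Subalgebra R L) (M : S → AddSubgroup L)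
    (habs : ∀ s, ∀ c ∈ B', ∀ a ∈ M s, c * a ∈ M s)
    (col : S → Col) (c₁ c₂ : Col) (hcol : ∀ s, col s = c₁ ∨ col s = c₂)
    (e₁ e₂ : ι → S) (he₁ : ∀ s, col s = c₁ → ∃ i, e₁ i = s) (he₂ : ∀ s, col s = c₂ → ∃ i, e₂ i = s)
    (j : B₀ →+* B') (ρ₀ : B₀ →+* C) (ρ₁ : B' →+* ℭ)
    (hρ₀ : Function.Surjective ρ₀) (hρ₁ : Function.Surjective ρ₁) (w : B₀)
    (hker₀ : RingHom.ker ρ₀ = Ideal.span {w}) (hker₁ : RingHom.ker ρ₁ = Ideal.span {j w})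
    (hcompat : ∀ b, ρ₁ (j b) = algebraMap C ℭ (ρ₀ b))
    (p₁ p₂ : Ideal B₀) [hp₁ : p₁.IsPrime] [hp₂ : p₂.IsPrime]
    (h₁₂ : ¬ p₁ ≤ p₂) (h₂₁ : ¬ p₂ ≤ p₁)
    (hinf : p₁ ⊓ p₂ = Ideal.span {w}) (hrad : (p₁ ⊔ p₂).IsRadical)
    (hQ₁ : ∀ i (b : B₀), ((j b : B') : L) ∈ M (e₁ i) ↔ b ∈ p₁)
    (hS₁ : ∀ i (b' : B'), ∃ b : B₀, ((b' - j b : B') : L) ∈ M (e₁ i))
    (hQ₂ : ∀ i (b : B₀), ((j b : B') : L) ∈ M (e₂ i) ↔ b ∈ p₂)
    (hS₂ : ∀ i (b' : B'), ∃ b : B₀, ((b' - j b : B') : L) ∈ M (e₂ i))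
    (hred : ∀ b' : B', (∀ s, (b' : L) ∈ M s) → ∃ t : B', b' = j w * t)
    (hn₁ : ∀ x : B', (∀ i, (x : L) ∈ M (e₁ i)) → ∃ k : ℕ, x ^ k ∈ p₁.map j)
    (hn₂ : ∀ x : B', (∀ i, (x : L) ∈ M (e₂ i)) → ∃ k : ℕ, x ^ k ∈ p₂.map j)
    (bC : Basis κ Λ C) (bℭ : Basis κ' Λ ℭ)
    (hrankℭ : Fintype.card κ' = Fintype.card ι * Fintype.card κ)
    (hne : Algebra.discr Λ bC ≠ 0)
    (hdisc : Algebra.discr Λ bℭ ∣ Algebra.discr Λ bC ^ Fintype.card ι) :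
    ∀ 𝔫 : Ideal B', 𝔫.IsMaximal → ∀ s t, col s = col t →
      (∀ c : B', (c : L) ∈ M s → c ∈ 𝔫) → (∀ c : B', (c : L) ∈ M t → c ∈ 𝔫) → s = t := by
  set Q : S → Ideal B' := fun s => chartIdeal B' (M s) (habs s) with hQ
  have hmem : ∀ s (c : B'), c ∈ Q s ↔ (c : L) ∈ M s := fun s c => Iff.rfl
  obtain ⟨r₁, r₂⟩ := sheets_comaximal_of_charts j ρ₀ ρ₁ hρ₀ hρ₁ w hker₀ hker₁ hcompat p₁ p₂
    h₁₂ h₂₁ hinf hrad (fun i => Q (e₁ i)) (fun i => Q (e₂ i))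
    (fun i => by ext b; exact hQ₁ i b) (fun i b' => hS₁ i b')
    (fun i => by ext b; exact hQ₂ i b) (fun i b' => hS₂ i b')
    (by
      intro b' hb'
      rw [Ideal.mem_span_singleton']
      have h1 : ∀ s, (b' : L) ∈ M s := by
        intro s
        rcases hcol s with h | h
        · obtain ⟨i, rfl⟩ := he₁ s h
          exact (Ideal.mem_iInf.1 hb'.1) i
        · obtain ⟨i, rfl⟩ := he₂ s h
          exact (Ideal.mem_iInf.1 hb'.2) i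
      obtain ⟨t, ht⟩ := hred b' h1
      exact ⟨t, by rw [ht, mul_comm]⟩)
    (fun x hx => hn₁ x fun i => (Ideal.mem_iInf.1 hx) i)
    (fun x hx => hn₂ x fun i => (Ideal.mem_iInf.1 hx) i)
    bC bℭ hrankℭ hne hdisc
  have hcomax : ∀ s t, col s = col t → s ≠ t → Q s ⊔ Q t = ⊤ := by
    intro s t hst hne'
    rcases hcol s with h | h
    · obtain ⟨i, rfl⟩ := he₁ s h
      obtain ⟨i', rfl⟩ := he₁ t (hst ▸ h)
      exact r₁ i i' (fun hii => hne' (by rw [hii]))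
    · obtain ⟨i, rfl⟩ := he₂ s h
      obtain ⟨i', rfl⟩ := he₂ t (hst ▸ h)
      exact r₂ i i' (fun hii => hne' (by rw [hii]))
  intro 𝔫 h𝔫 s t hst hs ht
  exact h_uni_of_comaximal Q col hcomax 𝔫 h𝔫 s t hst (fun c hc' => hs c hc') (fun c hc' => ht c hc')

end Fermat.Agent.A2.H733
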