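import Mathlib.RingTheory.Valuation.ValuationSubring
import Mathlib.RingTheory.Ideal.Operations
import Mathlib.RingTheory.Ideal.Span
import Mathlib.Algebra.Algebra.Subalgebra.Basic

/-!
# CountLeaf assembly, part 1: a discrete sheet is the localisation of the chart at its centre

`B ⊆ F` a chart with `F = Frac B`, `p₁ p₂` ideals of `B` with `p₁ ⊓ p₂ ≤ (w)`, `e ∈ p₂ \ p₁`.
`V` a valuation subring of `F` containing `B`, with centre `p₁` on `B`, discrete with uniformiser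
`w` (every `f ≠ 0` is `w ^ n * unit`).

* `exists_frac_of_mem` : every `c ∈ V` is `a / s` with `a, s ∈ B`, `s ∉ p₁` (so `V = B_{p₁}`);
* `eq_of_centre_eq` : two such valuation subrings with the same centre are equal.

Mathlib-only.
-/

set_option autoImplicit false

namespace Fermat.Agent.A2.H733

section Base

variable {R : Type*} [CommRing R] {F : Type*} [Field F] [Algebra R F]

theorem not_mem_nonunits_of_inv_mem (V : ValuationSubring F) {u : F} (_hu : u ∈ V)
    (hu' : u⁻¹ ∈ V) (hu0 : u ≠ 0) : u ∉ V.nonunits := by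
  intro h
  rw [ValuationSubring.mem_nonunits_iff_exists_mem_maximalIdeal] at h
  obtain ⟨hu1, h2⟩ := h
  have h3 : IsUnit (⟨u, hu1⟩ : V) := by
    refine IsUnit.of_mul_eq_one (⟨u⁻¹, hu'⟩ : V) ?_
    apply Subtype.ext
    exact mul_inv_cancel₀ hu0
  exact (IsLocalRing.mem_maximalIdeal _).1 h2 h3

theorem inv_mem_of_not_mem_nonunits (V : ValuationSubring F) {u : F} (hu : u ∈ V)
    (h : u ∉ V.nonunits) : u⁻¹ ∈ V := by
  by_contra h1
  apply h
  rw [ValuationSubring.mem_nonunits_iff_exists_mem_maximalIdeal]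
  refine ⟨hu, ?_⟩
  rw [IsLocalRing.mem_maximalIdeal, mem_nonunits_iff]
  intro hunit
  obtain ⟨v, hv⟩ := hunit.exists_right_inv
  apply h1
  have h2 : u * (v : F) = 1 := congrArg Subtype.val hv
  have h3 : u⁻¹ = (v : F) := by
    have hu0 : u ≠ 0 := by
      rintro rfl
      simp at h2
    field_simp
    exact h2.symm
  rw [h3]
  exact v.2

variable (B : Subalgebra R F) (w : R) (p₁ p₂ : Ideal B)

/-- Inductive step: clearing a common factor `w` of numerator and denominator. -/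
theorem exists_frac_of_mem_aux (V : ValuationSubring F) (hBV : ∀ b : B, (b : F) ∈ V)
    (hcentre : ∀ b : B, (b : F) ∈ V.nonunits ↔ b ∈ p₁)
    (hinf : p₁ ⊓ p₂ ≤ Ideal.span {algebraMap R B w})
    (e : B) (he₂ : e ∈ p₂) (he₁ : e ∉ p₁)
    (hw0 : algebraMap R F w ≠ 0) (c : F) (hc : c ∈ V) :
    ∀ (n : ℕ) (a s : B) (u : F), u ∈ V → u⁻¹ ∈ V → u ≠ 0 →
      (s : F) = algebraMap R F w ^ n * u → c * s = a → ∃ a' s' : B, s' ∉ p₁ ∧ c * s' = a' := by
  have he_unit : ((e : B) : F)⁻¹ ∈ V :=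
    inv_mem_of_not_mem_nonunits V (hBV e) (fun h => he₁ ((hcentre e).1 h))
  have he0 : ((e : B) : F) ≠ 0 := by
    intro h
    apply he₁
    have : e = 0 := Subtype.ext h
    rw [this]
    exact p₁.zero_mem
  intro n
  induction n with
  | zero =>
    intro a s u hu hu' hu0 hs hcs
    refine ⟨a, s, ?_, hcs⟩
    intro hsp
    have h1 := (hcentre s).2 hsp
    rw [hs, pow_zero, one_mul] at h1
    exact not_mem_nonunits_of_inv_mem V hu hu' hu0 h1
  | succ n ih =>
    intro a s u hu hu' hu0 hs hcs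
    have hwV : algebraMap R F w ∈ V := by
      have := hBV (algebraMap R B w)
      exact this
    have hsV : (s : F) ∈ V.nonunits → s ∈ p₁ := (hcentre s).1
    -- `w ∈ 𝔪_V` is not needed: if `w` is a unit of `V` then `s` is a unit and we are done
    by_cases hsp : s ∈ p₁
    · have hap : a ∈ p₁ := by
        rw [← hcentre a, ← hcs]
        have h1 := (hcentre s).2 hsp
        rw [ValuationSubring.mem_nonunits_iff_exists_mem_maximalIdeal] at h1 ⊢
        obtain ⟨hs1, hs2⟩ := h1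
        refine ⟨mul_mem hc hs1, ?_⟩
        have : (⟨c * s, mul_mem hc hs1⟩ : V) = ⟨c, hc⟩ * ⟨s, hs1⟩ := rfl
        rw [this]
        exact Ideal.mul_mem_left _ _ hs2
      have h1 : e * s ∈ p₁ ⊓ p₂ := ⟨p₁.mul_mem_left _ hsp, p₂.mul_mem_right _ he₂⟩
      have h2 : e * a ∈ p₁ ⊓ p₂ := ⟨p₁.mul_mem_left _ hap, p₂.mul_mem_right _ he₂⟩
      obtain ⟨s₁, hs₁⟩ := Ideal.mem_span_singleton'.1 (hinf h1)
      obtain ⟨a₁, ha₁⟩ := Ideal.mem_span_singleton'.1 (hinf h2)
      have hs₁F : (s₁ : F) * algebraMap R F w = (e : F) * (s : F) :=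
        congrArg (fun b : B => (b : F)) hs₁
      have ha₁F : (a₁ : F) * algebraMap R F w = (e : F) * (a : F) :=
        congrArg (fun b : B => (b : F)) ha₁
      refine ih a₁ s₁ ((e : F) * u) (mul_mem (hBV e) hu) ?_ (mul_ne_zero he0 hu0) ?_ ?_
      · rw [mul_inv]
        exact mul_mem he_unit hu'
      · have : (s₁ : F) * algebraMap R F w =
            (algebraMap R F w ^ n * ((e : F) * u)) * algebraMap R F w := by
          rw [hs₁F, hs, pow_succ]; ring
        exact mul_right_cancel₀ hw0 this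
      · have : (c * (s₁ : F)) * algebraMap R F w = (a₁ : F) * algebraMap R F w := by
          rw [ha₁F, mul_assoc, hs₁F, ← hcs]; ring
        exact mul_right_cancel₀ hw0 this
    · exact ⟨a, s, hsp, hcs⟩

/-- **A discrete sheet is the localisation of the chart at its centre.** -/
theorem exists_frac_of_mem (hFrac : ∀ f : F, ∃ a s : B, (s : F) ≠ 0 ∧ f * s = a)
    (V : ValuationSubring F) (hBV : ∀ b : B, (b : F) ∈ V)
    (hcentre : ∀ b : B, (b : F) ∈ V.nonunits ↔ b ∈ p₁)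
    (hinf : p₁ ⊓ p₂ ≤ Ideal.span {algebraMap R B w})
    (e : B) (he₂ : e ∈ p₂) (he₁ : e ∉ p₁)
    (hw : algebraMap R F w ∈ V.nonunits) (hw0 : algebraMap R F w ≠ 0)
    (hdisc : ∀ f : F, f ≠ 0 → ∃ (n : ℤ) (u : F), u ∈ V ∧ u⁻¹ ∈ V ∧ f = algebraMap R F w ^ n * u)
    (c : F) (hc : c ∈ V) : ∃ a s : B, s ∉ p₁ ∧ c * s = a := by
  obtain ⟨a, s, hs0, hcs⟩ := hFrac c
  obtain ⟨n, u, hu, hu', hsu⟩ := hdisc s hs0
  have hu0 : u ≠ 0 := by
    rintro rfl
    rw [mul_zero] at hsu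
    exact hs0 hsu
  -- the exponent is nonnegative
  obtain ⟨k, rfl | rfl⟩ := Int.eq_nat_or_neg n
  · rw [zpow_natCast] at hsu
    exact exists_frac_of_mem_aux B w p₁ p₂ V hBV hcentre hinf e he₂ he₁ hw0 c hc k a s u hu hu'
      hu0 hsu hcs
  · by_cases hk : k = 0
    · subst hk
      rw [Nat.cast_zero, neg_zero, zpow_zero] at hsu
      exact exists_frac_of_mem_aux B w p₁ p₂ V hBV hcentre hinf e he₂ he₁ hw0 c hc 0 a s u hu
        hu' hu0 (by rw [pow_zero]; exact hsu) hcs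
    · exfalso
      -- `u = s * w ^ k ∈ 𝔪_V`
      have h1 : u = (s : F) * algebraMap R F w ^ k := by
        rw [hsu, zpow_neg, zpow_natCast]
        field_simp
      have h2 : u ∈ V.nonunits := by
        rw [h1]
        obtain ⟨k', rfl⟩ := Nat.exists_eq_succ_of_ne_zero hk
        rw [ValuationSubring.mem_nonunits_iff_exists_mem_maximalIdeal] at hw ⊢
        obtain ⟨hw1, hw2⟩ := hw
        have hmem : (s : F) * algebraMap R F w ^ (k' + 1) ∈ V :=
          mul_mem (hBV s) (pow_mem hw1 _)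
        refine ⟨hmem, ?_⟩
        have : (⟨(s : F) * algebraMap R F w ^ (k' + 1), hmem⟩ : V) =
            (⟨s, hBV s⟩ * ⟨algebraMap R F w, hw1⟩ ^ k') * ⟨algebraMap R F w, hw1⟩ := by
          apply Subtype.ext
          simp [pow_succ, mul_assoc]
        rw [this]
        exact Ideal.mul_mem_left _ _ hw2
      exact not_mem_nonunits_of_inv_mem V hu hu' hu0 h2

/-- **A discrete sheet is determined by its centre.** -/
theorem eq_of_centre_eq (hFrac : ∀ f : F, ∃ a s : B, (s : F) ≠ 0 ∧ f * s = a)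
    (hinf : p₁ ⊓ p₂ ≤ Ideal.span {algebraMap R B w})
    (e : B) (he₂ : e ∈ p₂) (he₁ : e ∉ p₁) (hw0 : algebraMap R F w ≠ 0)
    (V V' : ValuationSubring F) (hBV : ∀ b : B, (b : F) ∈ V) (hBV' : ∀ b : B, (b : F) ∈ V')
    (hcentre : ∀ b : B, (b : F) ∈ V.nonunits ↔ b ∈ p₁)
    (hcentre' : ∀ b : B, (b : F) ∈ V'.nonunits ↔ b ∈ p₁)
    (hw : algebraMap R F w ∈ V.nonunits) (hw' : algebraMap R F w ∈ V'.nonunits)
    (hdisc : ∀ f : F, f ≠ 0 → ∃ (n : ℤ) (u : F), u ∈ V ∧ u⁻¹ ∈ V ∧ f = algebraMap R F w ^ n * u)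
    (hdisc' : ∀ f : F, f ≠ 0 →
      ∃ (n : ℤ) (u : F), u ∈ V' ∧ u⁻¹ ∈ V' ∧ f = algebraMap R F w ^ n * u) :
    V = V' := by
  have key : ∀ (V V' : ValuationSubring F), (∀ b : B, (b : F) ∈ V) → (∀ b : B, (b : F) ∈ V') →
      (∀ b : B, (b : F) ∈ V.nonunits ↔ b ∈ p₁) → (∀ b : B, (b : F) ∈ V'.nonunits ↔ b ∈ p₁) →
      algebraMap R F w ∈ V.nonunits →
      (∀ f : F, f ≠ 0 → ∃ (n : ℤ) (u : F), u ∈ V ∧ u⁻¹ ∈ V ∧ f = algebraMap R F w ^ n * u) →
      ∀ c ∈ V, c ∈ V' := by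
    intro V V' hBV hBV' hcentre hcentre' hw hdisc c hc
    obtain ⟨a, s, hs, hcs⟩ := exists_frac_of_mem B w p₁ p₂ hFrac V hBV hcentre hinf e he₂ he₁ hw
      hw0 hdisc c hc
    have hs' : (s : F)⁻¹ ∈ V' :=
      inv_mem_of_not_mem_nonunits V' (hBV' s) (fun h => hs ((hcentre' s).1 h))
    have hs0 : (s : F) ≠ 0 := by
      intro h
      apply hs
      have : s = 0 := Subtype.ext h
      rw [this]
      exact p₁.zero_mem
    have h1 : c = (a : F) * (s : F)⁻¹ := by
      rw [← hcs]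
      field_simp
    rw [h1]
    exact mul_mem (hBV' a) hs'
  ext c
  exact ⟨key V V' hBV hBV' hcentre hcentre' hw hdisc c,
    key V' V hBV' hBV hcentre' hcentre hw' hdisc' c⟩

end Base

end Fermat.Agent.A2.H733
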