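import Fermat.Agent.A2.H733.CountSetup
import Fermat.Agent.A2.H733.CountBase
import Fermat.Agent.A2.H373.SheetsBase
import Fermat.Agent.A2.H652.RedBase
import Fermat.Agent.A2.H12.AlgLeavesU
import Fermat.Agent.A2.H492.M4
import Mathlib.RingTheory.Invariant.Basic
import Mathlib.FieldTheory.Galois.Basic

/-!
# CountLeaf assembly, part 4: the charts of the base and of the cover as models

`R` a ring, `t : F`, `Λ := Algebra.adjoin R {t} ⊆ F`, `B : Subalgebra R F` the chart of `F`
(`hB : f ∈ B ↔ IsIntegral Λ f`), `L / F` a field extension, `B' := chart R {algebraMap F L t}`.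

* `algΛB`, `algΛB'`, `algBB'` : the algebra structures `Λ → B`, `Λ → B'`, `B → B'`;
* `galAction` : the action of `Gal(L/F)` on `B'`, `isInvariant_chart` : its invariants are `B`;
* `isIntegralClosure_chart`, `isIntegralClosure_cover` : `B`, `B'` are models of the integral
  closures of `Λ` in `F`, `L`.
-/

set_option autoImplicit false
set_option linter.unusedSectionVars false
set_option linter.style.haveILetI false

namespace Fermat.Agent.A2.H733

open Polynomial
open Fermat.Agent.A2 Fermat.Agent.A2.H12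
open Fermat.Agent.S18.H138 (chart mem_chart)

section Maps

variable {R F : Type*} [CommRing R] [Field F] [Algebra R F]
variable {L : Type*} [Field L] [Algebra F L] [Algebra R L] [IsScalarTower R F L]

/-- Integrality over `R[t] ⊆ F` of an element of `L` is membership in the chart of `L`. -/
theorem mem_chart_iff_isIntegral (t : F) (y : L) :
    y ∈ chart R ({algebraMap F L t} : Set L) ↔ IsIntegral (Algebra.adjoin R ({t} : Set F)) y := by
  rw [mem_chart, ← Set.image_singleton]
  exact ⟨Fermat.Agent.A2.H652.isIntegral_adjoin_of_isIntegral_adjoin_image {t},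
    Fermat.Agent.A2.H652.isIntegral_adjoin_image_of_isIntegral_adjoin {t}⟩

variable (L) in
/-- The chart of `F` maps into the chart of `L`. -/
theorem algebraMap_mem_chart {t : F} {B : Subalgebra R F}
    (hB : ∀ f : F, f ∈ B ↔ IsIntegral (Algebra.adjoin R ({t} : Set F)) f) (b : B) :
    algebraMap F L (b : F) ∈ chart R ({algebraMap F L t} : Set L) := by
  rw [mem_chart_iff_isIntegral]
  exact ((hB b).1 b.2).map (IsScalarTower.toAlgHom (Algebra.adjoin R ({t} : Set F)) F L)

variable (L) in
/-- `B → B'`. -/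
def chartMap {t : F} {B : Subalgebra R F}
    (hB : ∀ f : F, f ∈ B ↔ IsIntegral (Algebra.adjoin R ({t} : Set F)) f) :
    B →+* chart R ({algebraMap F L t} : Set L) where
  toFun b := ⟨algebraMap F L (b : F), algebraMap_mem_chart L hB b⟩
  map_one' := Subtype.ext (map_one _)
  map_mul' _ _ := Subtype.ext (map_mul _ _ _)
  map_zero' := Subtype.ext (map_zero _)
  map_add' _ _ := Subtype.ext (map_add _ _ _)

theorem coe_chartMap {t : F} {B : Subalgebra R F}
    (hB : ∀ f : F, f ∈ B ↔ IsIntegral (Algebra.adjoin R ({t} : Set F)) f) (b : B) :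
    ((chartMap L hB b : chart R ({algebraMap F L t} : Set L)) : L) = algebraMap F L (b : F) :=
  rfl

/-- `Λ → B`. -/
def baseMap {t : F} {B : Subalgebra R F}
    (hB : ∀ f : F, f ∈ B ↔ IsIntegral (Algebra.adjoin R ({t} : Set F)) f) :
    Algebra.adjoin R ({t} : Set F) →+* B where
  toFun a := ⟨(a : F), (hB a).2 isIntegral_algebraMap⟩
  map_one' := rfl
  map_mul' _ _ := rfl
  map_zero' := rfl
  map_add' _ _ := rfl

variable (L) in
/-- `Λ → B'`. -/
def coverMap (t : F) :
    Algebra.adjoin R ({t} : Set F) →+* chart R ({algebraMap F L t} : Set L) where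
  toFun a := ⟨algebraMap F L (a : F), (mem_chart_iff_isIntegral t _).2 isIntegral_algebraMap⟩
  map_one' := Subtype.ext (map_one _)
  map_mul' _ _ := Subtype.ext (map_mul _ _ _)
  map_zero' := Subtype.ext (map_zero _)
  map_add' _ _ := Subtype.ext (map_add _ _ _)

/-- The Galois group preserves the chart of the cover. -/
theorem galois_mem_chart (t : F) (σ : L ≃ₐ[F] L) {y : L}
    (hy : y ∈ chart R ({algebraMap F L t} : Set L)) :
    σ y ∈ chart R ({algebraMap F L t} : Set L) := by
  rw [mem_chart_iff_isIntegral] at hy ⊢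
  exact hy.map (σ.toAlgHom.restrictScalars (Algebra.adjoin R ({t} : Set F)))

variable (R L) in
/-- The action of `Gal(L/F)` on the chart of the cover. -/
@[reducible] def galAction (t : F) :
    MulSemiringAction (L ≃ₐ[F] L) (chart R ({algebraMap F L t} : Set L)) where
  smul σ y := ⟨σ (y : L), galois_mem_chart t σ y.2⟩
  one_smul _ := Subtype.ext rfl
  mul_smul _ _ _ := Subtype.ext rfl
  smul_zero σ := Subtype.ext (map_zero σ)
  smul_add σ _ _ := Subtype.ext (map_add σ _ _)
  smul_one σ := Subtype.ext (map_one σ)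
  smul_mul σ _ _ := Subtype.ext (map_mul σ _ _)

theorem coe_galAction_smul (t : F) (σ : L ≃ₐ[F] L) (y : chart R ({algebraMap F L t} : Set L)) :
    letI := galAction R L t
    ((σ • y : chart R ({algebraMap F L t} : Set L)) : L) = σ (y : L) := rfl

/-- `B` is a model of the integral closure of `Λ` in `F`. -/
theorem isIntegralClosure_chart {t : F} {B : Subalgebra R F}
    (hB : ∀ f : F, f ∈ B ↔ IsIntegral (Algebra.adjoin R ({t} : Set F)) f) :
    IsIntegralClosure B (Algebra.adjoin R ({t} : Set F)) F where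
  algebraMap_injective := Subtype.val_injective
  isIntegral_iff := fun {x} => by
    constructor
    · intro hx
      exact ⟨⟨x, (hB x).2 hx⟩, rfl⟩
    · rintro ⟨y, rfl⟩
      exact (hB y).1 y.2

variable (R L) in
/-- `B'` is a model of the integral closure of `Λ` in `L`. -/
theorem isIntegralClosure_cover (t : F) :
    IsIntegralClosure (chart R ({algebraMap F L t} : Set L)) (Algebra.adjoin R ({t} : Set F)) L where
  algebraMap_injective := Subtype.val_injective
  isIntegral_iff := fun {x} => by
    constructor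
    · intro hx
      exact ⟨⟨x, (mem_chart_iff_isIntegral t x).2 hx⟩, rfl⟩
    · rintro ⟨y, rfl⟩
      exact (mem_chart_iff_isIntegral t _).1 y.2

/-- The Galois action commutes with the scalars of the base chart. -/
theorem smulCommClass_chart {t : F} {B : Subalgebra R F}
    (hB : ∀ f : F, f ∈ B ↔ IsIntegral (Algebra.adjoin R ({t} : Set F)) f) :
    letI := (chartMap L hB).toAlgebra
    letI := galAction R L t
    SMulCommClass (L ≃ₐ[F] L) B (chart R ({algebraMap F L t} : Set L)) := by
  letI := (chartMap L hB).toAlgebra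
  letI := galAction R L t
  refine ⟨fun σ b y => ?_⟩
  apply Subtype.ext
  show σ (algebraMap F L (b : F) * (y : L)) = algebraMap F L (b : F) * σ (y : L)
  rw [map_mul, σ.commutes]

/-- The invariants of the Galois action on the chart of the cover are the chart of the base. -/
theorem isInvariant_chart [FiniteDimensional F L] [IsGalois F L] {t : F} {B : Subalgebra R F}
    (hB : ∀ f : F, f ∈ B ↔ IsIntegral (Algebra.adjoin R ({t} : Set F)) f) :
    letI := (chartMap L hB).toAlgebra
    letI := galAction R L t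
    Algebra.IsInvariant B (chart R ({algebraMap F L t} : Set L)) (L ≃ₐ[F] L) := by
  letI := (chartMap L hB).toAlgebra
  letI := galAction R L t
  refine ⟨fun y hy => ?_⟩
  have h1 : (y : L) ∈ Set.range (algebraMap F L) := by
    rw [IsGalois.mem_range_algebraMap_iff_fixed]
    intro σ
    exact congrArg Subtype.val (hy σ)
  obtain ⟨f, hf⟩ := h1
  have hfB : f ∈ B := by
    rw [hB]
    have h2 : IsIntegral (Algebra.adjoin R ({t} : Set F)) (algebraMap F L f) := by
      rw [hf]
      exact (mem_chart_iff_isIntegral t _).1 y.2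
    exact (isIntegral_algebraMap_iff (algebraMap F L).injective).1 h2
  exact ⟨⟨f, hfB⟩, Subtype.ext hf⟩

end Maps

section Base

variable {R E F : Type} [CommRing R] [IsDomain R] [IsDiscreteValuationRing R]
  [Field E] [Algebra R E] [IsFractionRing R E]
  [Field F] [Algebra E F] [Algebra R F] [IsScalarTower R E F]

/-- **The two sheets of the base**: each component of the semistable chart is the centre of
exactly one sheet, which is the localisation of the chart at the component. -/
theorem exists_base_sheets (w : R) (hw : Irreducible w) (t : F) (ht : Transcendental E t)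
    [FiniteDimensional (IntermediateField.adjoin E ({t} : Set F)) F]
    (B : Subalgebra R F)
    (hB : ∀ f : F, f ∈ B ↔ IsIntegral (Algebra.adjoin R ({t} : Set F)) f) (c : SSChart w B)
    (hdisc : ∀ V : ValuationSubring F, IsSheet w t V → ∀ f : F, f ≠ 0 →
      ∃ (n : ℤ) (u : F), u ∈ V ∧ u⁻¹ ∈ V ∧ f = algebraMap R F w ^ n * u) :
    ∃ V₁ V₂ : ValuationSubring F, IsSheet w t V₁ ∧ IsSheet w t V₂ ∧
      (∀ b : B, (b : F) ∈ V₁.nonunits ↔ b ∈ c.p₁) ∧
      (∀ b : B, (b : F) ∈ V₂.nonunits ↔ b ∈ c.p₂) ∧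
      (∀ V : ValuationSubring F, IsSheet w t V → V = V₁ ∨ V = V₂) ∧
      (∀ f ∈ V₁, ∃ a s : B, s ∉ c.p₁ ∧ f * (s : F) = a) ∧
      (∀ f ∈ V₂, ∃ a s : B, s ∉ c.p₂ ∧ f * (s : F) = a) := by
  have hinjRE : Function.Injective (algebraMap R E) := IsFractionRing.injective R E
  have hinj : Function.Injective (algebraMap R F) := by
    rw [IsScalarTower.algebraMap_eq R E F]
    exact (algebraMap E F).injective.comp hinjRE
  have hxR : Transcendental R t := ht.restrictScalars hinjRE
  have hwp : Prime w := hw.prime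
  have hw0 : algebraMap R F w ≠ 0 := fun h0 => hw.ne_zero (hinj (by rw [h0, map_zero]))
  haveI := c.prime₁
  haveI := c.prime₂
  have hinf' : c.p₂ ⊓ c.p₁ = Ideal.span {algebraMap R B w} := by
    rw [inf_comm]
    exact c.inf_eq
  obtain ⟨V₁, hBV₁, hV₁⟩ := Fermat.Agent.A2.H652.exists_valuationSubring_center B c.p₁
  obtain ⟨V₂, hBV₂, hV₂⟩ := Fermat.Agent.A2.H652.exists_valuationSubring_center B c.p₂
  have hS₁ : IsSheet w t V₁ := Fermat.Agent.A2.H652.isSheet_of_center w hwp hxR B hB c.p₁ c.p₂
    c.inf_eq c.not_le₂₁ V₁ hBV₁ hV₁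
  have hS₂ : IsSheet w t V₂ := Fermat.Agent.A2.H652.isSheet_of_center w hwp hxR B hB c.p₂ c.p₁
    hinf' c.not_le₁₂ V₂ hBV₂ hV₂
  have hfrac := Fermat.Agent.A2.H373.exists_div_mem hB
    (Fermat.Agent.A2.H373.isAlgebraic_adjoin_of_finite (R := R) (E := E) t)
  have hFrac : ∀ f : F, ∃ a s : B, (s : F) ≠ 0 ∧ f * (s : F) = a := by
    intro f
    obtain ⟨a, ha, b, hb, hb0, hf⟩ := hfrac f
    refine ⟨⟨a, ha⟩, ⟨b, hb⟩, hb0, ?_⟩
    rw [hf]
    exact div_mul_cancel₀ a hb0
  obtain ⟨e₂, he₂, he₂'⟩ := SetLike.not_le_iff_exists.1 c.not_le₂₁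
  obtain ⟨e₁, he₁, he₁'⟩ := SetLike.not_le_iff_exists.1 c.not_le₁₂
  refine ⟨V₁, V₂, hS₁, hS₂, hV₁, hV₂, ?_, ?_, ?_⟩
  · intro V hV
    have hc₁ : Fermat.Agent.A2.H373.centreOn V₁ B
        (Fermat.Agent.A2.H373.sheet_mem_of_mem hB hS₁) = c.p₁ := by
      ext b
      rw [Fermat.Agent.A2.H373.mem_centreOn]
      exact hV₁ b
    have hc₂ : Fermat.Agent.A2.H373.centreOn V₂ B
        (Fermat.Agent.A2.H373.sheet_mem_of_mem hB hS₂) = c.p₂ := by
      ext b
      rw [Fermat.Agent.A2.H373.mem_centreOn]
      exact hV₂ b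
    rcases Fermat.Agent.A2.H373.centreOn_eq_or hB hV c with h | h
    · left
      exact Fermat.Agent.A2.H373.sheet_eq_of_centre hB hfrac hw0 hV hS₁ (hdisc V hV)
        (hdisc V₁ hS₁) c.p₁ c.p₂ (le_of_eq c.inf_eq) c.not_le₂₁ h hc₁
    · right
      exact Fermat.Agent.A2.H373.sheet_eq_of_centre hB hfrac hw0 hV hS₂ (hdisc V hV)
        (hdisc V₂ hS₂) c.p₂ c.p₁ (le_of_eq hinf') c.not_le₁₂ h hc₂
  · intro f hf
    exact exists_frac_of_mem B w c.p₁ c.p₂ hFrac V₁ (fun b => hBV₁ b b.2) hV₁
      (le_of_eq c.inf_eq) e₂ he₂ he₂' hS₁.2.2.1 hw0 (hdisc V₁ hS₁) f hf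
  · intro f hf
    exact exists_frac_of_mem B w c.p₂ c.p₁ hFrac V₂ (fun b => hBV₂ b b.2) hV₂
      (le_of_eq hinf') e₁ he₁ he₁' hS₂.2.2.1 hw0 (hdisc V₂ hS₂) f hf

end Base

section Cover

variable {R F L : Type} [CommRing R] [Field F] [Algebra R F]
  [Field L] [Algebra F L] [Algebra R L] [IsScalarTower R F L]

/-- The chart of the cover lies in every sheet. -/
theorem chart_le_sheet {w : R} {t : F} {W : ValuationSubring L}
    (hW : IsSheet w (algebraMap F L t) W) :
    ∀ b ∈ chart R ({algebraMap F L t} : Set L), b ∈ W :=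
  fun _ hb => hW.chart_le (T := {algebraMap F L t}) (by simp) hb

/-- The centre of a sheet of the cover lies over the centre of its restriction. -/
theorem comap_centreOn_cover {w : R} {t : F} {B : Subalgebra R F}
    (hB : ∀ f : F, f ∈ B ↔ IsIntegral (Algebra.adjoin R ({t} : Set F)) f)
    {W : ValuationSubring L} (hW : IsSheet w (algebraMap F L t) W) (p : Ideal B)
    (hcentre : ∀ b : B, (b : F) ∈ (W.comap (algebraMap F L)).nonunits ↔ b ∈ p) :
    (Fermat.Agent.A2.H373.centreOn W (chart R ({algebraMap F L t} : Set L))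
      (chart_le_sheet hW)).comap (chartMap L hB) = p := by
  ext b
  rw [Ideal.mem_comap, Fermat.Agent.A2.H373.mem_centreOn, coe_chartMap, ← hcentre b,
    Fermat.Agent.A2.H12.mem_nonunits_comap]

/-- **Residue degree one + normality of the component**: `B' = B + Q`. -/
theorem exists_sub_mem_centreOn {w : R} {t : F} {B : Subalgebra R F}
    (hB : ∀ f : F, f ∈ B ↔ IsIntegral (Algebra.adjoin R ({t} : Set F)) f)
    {W : ValuationSubring L} (hW : IsSheet w (algebraMap F L t) W) (p : Ideal B) [p.IsPrime]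
    [IsIntegrallyClosed (B ⧸ p)]
    (hcentre : ∀ b : B, (b : F) ∈ (W.comap (algebraMap F L)).nonunits ↔ b ∈ p)
    (hfrac : ∀ f ∈ W.comap (algebraMap F L), ∃ a s : B, s ∉ p ∧ f * (s : F) = a)
    (hres : ∀ b ∈ W, ∃ c : F, b - algebraMap F L c ∈ W.nonunits)
    (b' : chart R ({algebraMap F L t} : Set L)) :
    ∃ b : B, b' - chartMap L hB b ∈
      Fermat.Agent.A2.H373.centreOn W (chart R ({algebraMap F L t} : Set L))
        (chart_le_sheet hW) := by
  letI algΛB : Algebra (Algebra.adjoin R ({t} : Set F)) B := (baseMap hB).toAlgebra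
  letI algΛB' : Algebra (Algebra.adjoin R ({t} : Set F)) (chart R ({algebraMap F L t} : Set L)) :=
    (coverMap L t).toAlgebra
  letI algBB' : Algebra B (chart R ({algebraMap F L t} : Set L)) := (chartMap L hB).toAlgebra
  haveI : IsScalarTower (Algebra.adjoin R ({t} : Set F)) B
      (chart R ({algebraMap F L t} : Set L)) := IsScalarTower.of_algebraMap_eq (fun _ => rfl)
  haveI : IsScalarTower (Algebra.adjoin R ({t} : Set F)) (chart R ({algebraMap F L t} : Set L)) L :=
    IsScalarTower.of_algebraMap_eq (fun _ => rfl)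
  haveI := isIntegralClosure_cover R L t
  have hb' : IsIntegral B b' :=
    (IsIntegralClosure.isIntegral (Algebra.adjoin R ({t} : Set F)) L b').tower_top
  obtain ⟨cF, hcF⟩ := hres (b' : L) (chart_le_sheet hW _ b'.2)
  have hcW : algebraMap F L cF ∈ W := by
    have h1 : algebraMap F L cF = (b' : L) - ((b' : L) - algebraMap F L cF) := by ring
    rw [h1]
    exact sub_mem (chart_le_sheet hW _ b'.2) (ValuationSubring.nonunits_subset hcF)
  obtain ⟨a, s, hs, hcs⟩ := hfrac cF hcW
  have hcomap := comap_centreOn_cover hB hW p hcentre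
  refine Fermat.Agent.A2.H492.exists_sub_mem_of_integrallyClosed
    (Fermat.Agent.A2.H373.centreOn W (chart R ({algebraMap F L t} : Set L))
      (chart_le_sheet hW)) p hcomap hb' (c := a) (d := s) hs ?_
  rw [Fermat.Agent.A2.H373.mem_centreOn]
  have h2 : ((algebraMap B (chart R ({algebraMap F L t} : Set L)) s * b' -
      algebraMap B (chart R ({algebraMap F L t} : Set L)) a :
        chart R ({algebraMap F L t} : Set L)) : L) =
      algebraMap F L (s : F) * ((b' : L) - algebraMap F L cF) := by
    show algebraMap F L (s : F) * (b' : L) - algebraMap F L (a : F) = _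
    rw [← hcs, map_mul]
    ring
  rw [h2]
  exact Fermat.Agent.A2.H12.mul_mem_nonunits W hcF
    (chart_le_sheet hW _ (algebraMap_mem_chart L hB s))

end Cover

end Fermat.Agent.A2.H733
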