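import Fermat.Agent.A2.H733.CountUp
import Fermat.Agent.A2.H733.CountChart
import Fermat.Agent.A2.A3.H492.KummerHyp
import Fermat.Agent.S18.H138.ChartsConst

/-!
# CountLeaf assembly, part 5: COUNT for one chart of a Kummer-split cover

`countAt_of_chart` : `H12.CountAt L w t {algebraMap F L t}` for the chart `B` of the coordinate
`t` (semistable, separating coordinate), a finite Galois Kummer cover `L / F` with `m ∣ div g` on
the generic fibre and `g` split at the sheets, from `SheetsConclusion` and the reducedness of the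
special fibre of the chart of the cover.

Proof: `count_upstairs` (= `H973.sheets_unique_at_ideal` + the discriminant relation
`A3.H492.exists_bases_associated_discr_of_kummer`) for `Λ = R[t]`, `K = E(t)`, `B`,
`B' = chart R {t}`, `Q_i` = the centre on `B'` of a fixed sheet over the component `p_i`.
-/

set_option autoImplicit false
set_option linter.unusedSectionVars false
set_option linter.style.haveILetI false
set_option maxHeartbeats 1600000
set_option synthInstance.maxHeartbeats 400000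

namespace Fermat.Agent.A2.H733

open Polynomial
open Fermat.Agent.A2 Fermat.Agent.A2.H12
open Fermat.Agent.S18.H138 (chart mem_chart)

section Aux

variable {R F : Type} [CommRing R] [Field F] [Algebra R F]

/-- The component cut out by a sheet lies over `(w)` of `R[t]`. -/
theorem comap_baseMap_eq {w : R} {t : F} {B : Subalgebra R F}
    (hB : ∀ f : F, f ∈ B ↔ IsIntegral (Algebra.adjoin R ({t} : Set F)) f) (p : Ideal B)
    (V : ValuationSubring F) (hV : IsSheet w t V)
    (hcentre : ∀ b : B, (b : F) ∈ V.nonunits ↔ b ∈ p) :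
    p.comap (baseMap hB) = Ideal.span {algebraMap R (Algebra.adjoin R ({t} : Set F)) w} := by
  ext a
  rw [Ideal.mem_comap, Ideal.mem_span_singleton]
  constructor
  · intro ha
    have h1 : ((baseMap hB a : B) : F) ∈ V.nonunits := (hcentre _).2 ha
    obtain ⟨P, hP⟩ : ∃ P : R[X], aeval t P = (a : F) :=
      Fermat.Agent.S18.H138.mem_adjoin_singleton_iff.1 a.2
    have h3 : aeval t P ∈ V.nonunits := by
      rw [hP]
      exact h1
    obtain ⟨Q, hQ⟩ := Fermat.Agent.A2.H373.sheet_exists_mul_of_nonunit hV P h3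
    have hQm : aeval t Q ∈ Algebra.adjoin R ({t} : Set F) :=
      Fermat.Agent.S18.H138.mem_adjoin_singleton_iff.2 ⟨Q, rfl⟩
    refine ⟨⟨aeval t Q, hQm⟩, ?_⟩
    apply Subtype.ext
    show (a : F) = algebraMap R F w * aeval t Q
    rw [← hP, hQ]
  · rintro ⟨a', rfl⟩
    rw [map_mul]
    apply Ideal.mul_mem_right
    have h1 : ((baseMap hB (algebraMap R (Algebra.adjoin R ({t} : Set F)) w) : B) : F) ∈
        V.nonunits := hV.2.2.1
    exact (hcentre _).1 h1

end Aux

section Core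

variable {R E F : Type} [CommRing R] [IsDomain R] [IsDiscreteValuationRing R]
  [Field E] [CharZero E] [Algebra R E] [IsFractionRing R E]
  [Field F] [Algebra E F] [Algebra R F] [IsScalarTower R E F]

/-- **COUNT for one chart.** -/
theorem countAt_of_chart (w : R) (hw : Irreducible w) (m : ℕ) (hm0 : 0 < m)
    (hm : IsUnit (m : R)) (t : F) (ht : Transcendental E t)
    [hfin : FiniteDimensional (IntermediateField.adjoin E ({t} : Set F)) F]
    (B : Subalgebra R F)
    (hB : ∀ f : F, f ∈ B ↔ IsIntegral (Algebra.adjoin R ({t} : Set F)) f)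
    (c : SSChart w B) (hsep : SepCoord R E t B)
    (hdisc : ∀ V : ValuationSubring F, IsSheet w t V → ∀ f : F, f ≠ 0 →
      ∃ (n : ℤ) (u : F), u ∈ V ∧ u⁻¹ ∈ V ∧ f = algebraMap R F w ^ n * u)
    (L : Type) [Field L] [Algebra F L] [Algebra R L] [IsScalarTower R F L]
    [FiniteDimensional F L] [IsGalois F L]
    (hgen : ∃ (n : ℕ) (y : Fin n → L) (g : Fin n → F),
      (∀ i, g i ≠ 0) ∧ (∀ i, y i ^ m = algebraMap F L (g i)) ∧
      IntermediateField.adjoin F (Set.range y) = ⊤ ∧
      (∀ i, HorDiv R m (g i)) ∧ ∀ i, ∀ V : ValuationSubring F, IsSheet w t V →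
        SplitAtU m V (g i))
    (hS : SheetsConclusion L w t)
    (hred : ∀ b ∈ chart R ({algebraMap F L t} : Set L),
      (∀ W : ValuationSubring L, IsSheet w (algebraMap F L t) W → b ∈ W.nonunits) →
      ∃ b₁ ∈ chart R ({algebraMap F L t} : Set L), b = algebraMap R L w * b₁) :
    CountAt L w t {algebraMap F L t} := by
  classical
  have hinjRE : Function.Injective (algebraMap R E) := IsFractionRing.injective R E
  have hxR : Transcendental R t := ht.restrictScalars hinjRE
  have hwp : Prime w := hw.prime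
  -- the sheets of the base and one sheet of the cover over each of them
  obtain ⟨V₁, V₂, hS₁, hS₂, hV₁, hV₂, hcls, hfr₁, hfr₂⟩ :=
    exists_base_sheets w hw t ht B hB c hdisc
  obtain ⟨W₁, hW₁, hWV₁⟩ := hS.exists_over V₁ hS₁
  obtain ⟨W₂, hW₂, hWV₂⟩ := hS.exists_over V₂ hS₂
  haveI := c.prime₁
  haveI := c.prime₂
  haveI := c.normal₁
  haveI := c.normal₂
  -- instances
  letI algΛK : Algebra (Algebra.adjoin R ({t} : Set F))
      (IntermediateField.adjoin E ({t} : Set F)) := algAdjoin R E t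
  haveI : IsFractionRing (Algebra.adjoin R ({t} : Set F))
      (IntermediateField.adjoin E ({t} : Set F)) := isFractionRing_adjoin R E t
  haveI : IsScalarTower (Algebra.adjoin R ({t} : Set F))
      (IntermediateField.adjoin E ({t} : Set F)) F := IsScalarTower.of_algebraMap_eq (fun _ => rfl)
  haveI : IsScalarTower (Algebra.adjoin R ({t} : Set F))
      (IntermediateField.adjoin E ({t} : Set F)) L := IsScalarTower.of_algebraMap_eq (fun _ => rfl)
  haveI : IsIntegrallyClosed (Algebra.adjoin R ({t} : Set F)) :=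
    Fermat.Agent.S18.H138.isIntegrallyClosed_adjoin_singleton hxR
  haveI : IsNoetherianRing (Algebra.adjoin R ({t} : Set F)) :=
    Fermat.Agent.S18.H138.isNoetherianRing_adjoin_singleton hxR
  haveI : UniqueFactorizationMonoid (Algebra.adjoin R ({t} : Set F)) :=
    Fermat.Agent.A2.A3.H492.uniqueFactorizationMonoid_adjoin hxR
  letI algΛB : Algebra (Algebra.adjoin R ({t} : Set F)) B := (baseMap hB).toAlgebra
  letI algΛB' : Algebra (Algebra.adjoin R ({t} : Set F))
      (chart R ({algebraMap F L t} : Set L)) := (coverMap L t).toAlgebra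
  letI algBB' : Algebra B (chart R ({algebraMap F L t} : Set L)) := (chartMap L hB).toAlgebra
  letI act : MulSemiringAction (L ≃ₐ[F] L) (chart R ({algebraMap F L t} : Set L)) :=
    galAction R L t
  haveI : IsScalarTower (Algebra.adjoin R ({t} : Set F)) B
      (chart R ({algebraMap F L t} : Set L)) := IsScalarTower.of_algebraMap_eq (fun _ => rfl)
  haveI : IsScalarTower (Algebra.adjoin R ({t} : Set F)) B F :=
    IsScalarTower.of_algebraMap_eq (fun _ => rfl)
  haveI : IsScalarTower (Algebra.adjoin R ({t} : Set F))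
      (chart R ({algebraMap F L t} : Set L)) L := IsScalarTower.of_algebraMap_eq (fun _ => rfl)
  haveI : IsIntegralClosure B (Algebra.adjoin R ({t} : Set F)) F := isIntegralClosure_chart hB
  haveI : IsIntegralClosure (chart R ({algebraMap F L t} : Set L))
      (Algebra.adjoin R ({t} : Set F)) L := isIntegralClosure_cover R L t
  haveI : SMulCommClass (L ≃ₐ[F] L) B (chart R ({algebraMap F L t} : Set L)) :=
    smulCommClass_chart (L := L) hB
  haveI : Algebra.IsInvariant B (chart R ({algebraMap F L t} : Set L)) (L ≃ₐ[F] L) :=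
    isInvariant_chart (L := L) hB
  have hwΛ : Prime (algebraMap R (Algebra.adjoin R ({t} : Set F)) w) :=
    Fermat.Agent.A2.A3.H492.prime_algebraMap_adjoin hxR hwp
  have hmax : (Ideal.span {w} : Ideal R).IsMaximal := by
    rw [← hw.maximalIdeal_eq]
    exact IsLocalRing.maximalIdeal.isMaximal R
  haveI : IsPrincipalIdealRing (Algebra.adjoin R ({t} : Set F) ⧸
      Ideal.span {algebraMap R (Algebra.adjoin R ({t} : Set F)) w}) :=
    Fermat.Agent.A2.A3.H492.isPrincipalIdealRing_quotient_adjoin hxR hmax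
  haveI halg : Algebra.IsAlgebraic (Algebra.adjoin R ({t} : Set F)) F :=
    ⟨Fermat.Agent.A2.H373.isAlgebraic_adjoin_of_finite (R := R) (E := E) t⟩
  have hmΛ : IsUnit ((m : ℕ) : Algebra.adjoin R ({t} : Set F)) := by
    have := hm.map (algebraMap R (Algebra.adjoin R ({t} : Set F)))
    rwa [map_natCast] at this
  -- the Kummer hypothesis
  obtain ⟨n, y, g, hg0, hyg, hadj, hhor, hsplit⟩ := hgen
  have hgauss : ∀ P : R[X], (∃ i, ¬ w ∣ P.coeff i) →
      ¬ algebraMap R (Algebra.adjoin R ({t} : Set F)) w ∣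
        aeval (⟨t, Algebra.subset_adjoin rfl⟩ : Algebra.adjoin R ({t} : Set F)) P := by
    intro P hP
    have h1 := Fermat.Agent.A2.A3.H492.not_dvd_aeval_of_coeff hxR w P hP
    have h2 : Fermat.Agent.A2.A3.H492.adjoinEquiv hxR P =
        aeval (⟨t, Algebra.subset_adjoin rfl⟩ : Algebra.adjoin R ({t} : Set F)) P := by
      apply Subtype.ext
      rw [Fermat.Agent.A2.A3.H492.coe_adjoinEquiv, ← Subalgebra.aeval_coe]
    rwa [h2] at h1
  have hG : ∀ G ∈ Set.range y, G ≠ 0 ∧ ∃ g' : F, algebraMap F L g' = G ^ m ∧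
      ∀ π : Algebra.adjoin R ({t} : Set F), Prime π → ∀ V : ValuationSubring F,
        IsDiscreteValuationRing V →
        (∀ a : Algebra.adjoin R ({t} : Set F), algebraMap _ F a ∈ V) →
        (∀ a : Algebra.adjoin R ({t} : Set F), ¬ π ∣ a → (algebraMap _ F a)⁻¹ ∈ V) →
        ∃ h u : F, h ≠ 0 ∧ u ∈ V ∧ u⁻¹ ∈ V ∧ g' = u * h ^ m := by
    rintro G ⟨i, rfl⟩
    refine ⟨?_, g i, (hyg i).symm, ?_⟩
    · intro h0
      have h1 := hyg i
      rw [h0, zero_pow hm0.ne'] at h1
      exact hg0 i ((map_eq_zero (algebraMap F L)).1 h1.symm)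
    · intro π hπ V hVd h1 h2
      refine Fermat.Agent.A2.A3.H492.kummer_hyp (Λ := Algebra.adjoin R ({t} : Set F))
        Subtype.val_injective hw hwΛ ⟨t, Algebra.subset_adjoin rfl⟩ rfl hgauss m (hhor i)
        (fun V' hV' => ?_) π hπ V hVd h1 h2
      have hsp := hsplit i V' hV'
      exact ⟨hsp.mem, inv_mem_of_not_mem_nonunits V' hsp.mem hsp.not_mem_nonunits⟩
  -- the separating coordinate
  obtain ⟨n₀, b₀, hb₀B, -, hn₀, d, hd, hdd⟩ := hsep
  subst hn₀
  have hb₀ : ∀ i, IsIntegral (Algebra.adjoin R ({t} : Set F)) (b₀ i) := fun i =>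
    (hB _).1 (hb₀B i)
  have hd₀ : algebraMap (Algebra.adjoin R ({t} : Set F))
      (IntermediateField.adjoin E ({t} : Set F)) (Fermat.Agent.A2.A3.H492.adjoinEquiv hxR d) =
      Algebra.discr (IntermediateField.adjoin E ({t} : Set F)) b₀ := by
    apply Subtype.ext
    show aeval t d = _
    rw [hdd]
    rfl
  have hwd : ¬ algebraMap R (Algebra.adjoin R ({t} : Set F)) w ∣
      Fermat.Agent.A2.A3.H492.adjoinEquiv hxR d := by
    refine Fermat.Agent.A2.A3.H492.not_dvd_aeval_of_coeff hxR w d ?_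
    by_contra hcon
    rw [not_exists] at hcon
    apply hd
    ext i
    rw [coeff_map, coeff_zero]
    have h1 : w ∣ d.coeff i := not_not.1 (hcon i)
    rw [IsLocalRing.residue_eq_zero_iff, hw.maximalIdeal_eq, Ideal.mem_span_singleton]
    exact h1
  -- the components and the sheets over them
  have hinf : c.p₁ ⊓ c.p₂ = (Ideal.span {algebraMap R (Algebra.adjoin R ({t} : Set F)) w}).map
      (algebraMap (Algebra.adjoin R ({t} : Set F)) B) := by
    rw [Ideal.map_span, Set.image_singleton]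
    exact c.inf_eq
  have hpP₁ : c.p₁.comap (algebraMap (Algebra.adjoin R ({t} : Set F)) B) =
      Ideal.span {algebraMap R (Algebra.adjoin R ({t} : Set F)) w} :=
    comap_baseMap_eq hB c.p₁ V₁ hS₁ hV₁
  have hpP₂ : c.p₂.comap (algebraMap (Algebra.adjoin R ({t} : Set F)) B) =
      Ideal.span {algebraMap R (Algebra.adjoin R ({t} : Set F)) w} :=
    comap_baseMap_eq hB c.p₂ V₂ hS₂ hV₂
  have hc₁ : ∀ b : B, (b : F) ∈ (W₁.comap (algebraMap F L)).nonunits ↔ b ∈ c.p₁ := by
    rw [hWV₁]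
    exact hV₁
  have hc₂ : ∀ b : B, (b : F) ∈ (W₂.comap (algebraMap F L)).nonunits ↔ b ∈ c.p₂ := by
    rw [hWV₂]
    exact hV₂
  have hQp₁ := comap_centreOn_cover hB hW₁ c.p₁ hc₁
  have hQp₂ := comap_centreOn_cover hB hW₂ c.p₂ hc₂
  have hQs₁ := exists_sub_mem_centreOn hB hW₁ c.p₁ hc₁ (by rw [hWV₁]; exact hfr₁)
    (hS.resdeg W₁ hW₁)
  have hQs₂ := exists_sub_mem_centreOn hB hW₂ c.p₂ hc₂ (by rw [hWV₂]; exact hfr₂)
    (hS.resdeg W₂ hW₂)
  -- every sheet of the cover is a conjugate of `W₁` or of `W₂`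
  have hconj : ∀ W : ValuationSubring L, IsSheet w (algebraMap F L t) W →
      (W.comap (algebraMap F L) = V₁ ∧ ∃ σ : L ≃ₐ[F] L, ∀ b, b ∈ W.nonunits ↔ σ b ∈ W₁.nonunits) ∨
      (W.comap (algebraMap F L) = V₂ ∧
        ∃ σ : L ≃ₐ[F] L, ∀ b, b ∈ W.nonunits ↔ σ b ∈ W₂.nonunits) := by
    intro W hW
    rcases hcls _ hW.comap_algebraMap with h | h
    · left
      obtain ⟨σ, hσ⟩ := hS.trans W W₁ hW hW₁ (by rw [h, hWV₁])
      exact ⟨h, σ, Fermat.Agent.A2.H12.nonunits_iff_of_mem_iff (σ : L ≃+* L) W W₁ hσ⟩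
    · right
      obtain ⟨σ, hσ⟩ := hS.trans W W₂ hW hW₂ (by rw [h, hWV₂])
      exact ⟨h, σ, Fermat.Agent.A2.H12.nonunits_iff_of_mem_iff (σ : L ≃+* L) W W₂ hσ⟩
  -- the special fibre of the chart of the cover is reduced
  have hredU : ∀ x : chart R ({algebraMap F L t} : Set L),
      (∀ σ : L ≃ₐ[F] L, σ • x ∈ Fermat.Agent.A2.H373.centreOn W₁
        (chart R ({algebraMap F L t} : Set L)) (chart_le_sheet hW₁)) →
      (∀ σ : L ≃ₐ[F] L, σ • x ∈ Fermat.Agent.A2.H373.centreOn W₂
        (chart R ({algebraMap F L t} : Set L)) (chart_le_sheet hW₂)) →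
      x ∈ (Ideal.span {algebraMap R (Algebra.adjoin R ({t} : Set F)) w}).map
        (algebraMap (Algebra.adjoin R ({t} : Set F)) (chart R ({algebraMap F L t} : Set L))) := by
    intro x h1 h2
    have hall : ∀ W : ValuationSubring L, IsSheet w (algebraMap F L t) W →
        (x : L) ∈ W.nonunits := by
      intro W hW
      rcases hconj W hW with ⟨-, σ, hσ⟩ | ⟨-, σ, hσ⟩
      · exact (hσ _).2 ((Fermat.Agent.A2.H373.mem_centreOn _ _ _ _).1 (h1 σ))
      · exact (hσ _).2 ((Fermat.Agent.A2.H373.mem_centreOn _ _ _ _).1 (h2 σ))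
    obtain ⟨b₁, hb₁, hxb⟩ := hred x x.2 hall
    rw [Ideal.map_span, Set.image_singleton, Ideal.mem_span_singleton]
    refine ⟨⟨b₁, hb₁⟩, Subtype.ext ?_⟩
    show (x : L) = algebraMap F L (algebraMap R F w) * b₁
    rw [hxb, ← IsScalarTower.algebraMap_apply R F L]
  -- COUNT upstairs
  have key := fun (𝔫 : Ideal (chart R ({algebraMap F L t} : Set L))) (h𝔫 : 𝔫 ≠ ⊤)
      (σ σ' : L ≃ₐ[F] L) =>
    count_upstairs (K := IntermediateField.adjoin E ({t} : Set F)) hwΛ m hmΛ (Set.range y) hadj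
      hG b₀ (Fermat.Agent.A2.A3.H492.adjoinEquiv hxR d) hb₀ hd₀ hwd c.p₁ c.p₂ hinf
      c.transversal hpP₁ hpP₂ c.not_le₁₂ c.not_le₂₁ _ _ hQp₁ hQp₂ hQs₁ hQs₂ hredU 𝔫 h𝔫 σ σ'
  -- conclusion
  intro 𝔫 h𝔫 W W' hW hW' hcomap h1 h2
  rcases hcls _ hW.comap_algebraMap with h | h
  · obtain ⟨σ, hσ⟩ := hS.trans W W₁ hW hW₁ (by rw [h, hWV₁])
    obtain ⟨σ', hσ'⟩ := hS.trans W' W₁ hW' hW₁ (by rw [← hcomap, h, hWV₁])
    have hσn := Fermat.Agent.A2.H12.nonunits_iff_of_mem_iff (σ : L ≃+* L) W W₁ hσ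
    have hσn' := Fermat.Agent.A2.H12.nonunits_iff_of_mem_iff (σ' : L ≃+* L) W' W₁ hσ'
    have hσσ' : σ = σ' := (key 𝔫 h𝔫.ne_top σ σ').1
      (fun x hx => h1 x ((hσn _).2 ((Fermat.Agent.A2.H373.mem_centreOn _ _ _ _).1 hx)))
      (fun x hx => h2 x ((hσn' _).2 ((Fermat.Agent.A2.H373.mem_centreOn _ _ _ _).1 hx)))
    subst hσσ'
    ext b
    exact (hσ b).trans (hσ' b).symm
  · obtain ⟨σ, hσ⟩ := hS.trans W W₂ hW hW₂ (by rw [h, hWV₂])
    obtain ⟨σ', hσ'⟩ := hS.trans W' W₂ hW' hW₂ (by rw [← hcomap, h, hWV₂])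
    have hσn := Fermat.Agent.A2.H12.nonunits_iff_of_mem_iff (σ : L ≃+* L) W W₂ hσ
    have hσn' := Fermat.Agent.A2.H12.nonunits_iff_of_mem_iff (σ' : L ≃+* L) W' W₂ hσ'
    have hσσ' : σ = σ' := (key 𝔫 h𝔫.ne_top σ σ').2
      (fun x hx => h1 x ((hσn _).2 ((Fermat.Agent.A2.H373.mem_centreOn _ _ _ _).1 hx)))
      (fun x hx => h2 x ((hσn' _).2 ((Fermat.Agent.A2.H373.mem_centreOn _ _ _ _).1 hx)))
    subst hσσ'
    ext b
    exact (hσ b).trans (hσ' b).symm

end Core

end Fermat.Agent.A2.H733
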