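import Fermat.Agent.A2.H733.CountCore
import Fermat.Agent.A2.H12.RootLeaf

/-!
# Cell A2 — route G: the leaf COUNT (helper733)

`countLeafU_of : BaseLeaf → SheetsLeafU → RedLeafU → CountLeafU` (statements of
`A2/H12/AlgLeaves.lean`, `A2/H12/AlgLeavesU.lean`, verbatim): through a closed point of a chart
of a Kummer-split cover passes at most one sheet of each colour.

Both charts are instances of `countAt_of_chart` (`CountCore.lean`): the finite chart with the
coordinate `x`, the chart at infinity with the coordinate `x⁻¹` (a sheet for `x` is a sheet for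
`x⁻¹`).
-/

set_option autoImplicit false
set_option linter.unusedSectionVars false
set_option linter.style.haveILetI false
set_option maxHeartbeats 1600000
set_option synthInstance.maxHeartbeats 400000

namespace Fermat.Agent.A2.H733

open Polynomial
open Fermat.Agent.A2 Fermat.Agent.A2.H12
open Fermat.Agent.S18.H138 (chart mem_chart)

section Inv

variable {R : Type} [CommRing R] [IsDomain R] {K : Type} [Field K] [Algebra R K]

/-- A sheet for the coordinate `x` is a sheet for the coordinate `x⁻¹`, and conversely. -/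
theorem isSheet_inv_iff (w : R) {x : K} (hx0 : x ≠ 0) (V : ValuationSubring K) :
    IsSheet w x⁻¹ V ↔ IsSheet w x V := by
  constructor
  · exact Fermat.Agent.A2.H652.isSheet_of_isSheet_inv w hx0
  · intro h
    refine Fermat.Agent.A2.H652.isSheet_of_isSheet_inv w (inv_ne_zero hx0) ?_
    rwa [inv_inv]

theorem adjoin_inv_eq_adjoin {E F : Type} [Field E] [Field F] [Algebra E F] (x : F) :
    IntermediateField.adjoin E ({x⁻¹} : Set F) = IntermediateField.adjoin E ({x} : Set F) := by
  apply le_antisymm
  · rw [IntermediateField.adjoin_le_iff]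
    rintro y hy
    rw [Set.mem_singleton_iff] at hy
    subst hy
    exact inv_mem (IntermediateField.subset_adjoin E _ (Set.mem_singleton x))
  · rw [IntermediateField.adjoin_le_iff]
    rintro y hy
    rw [Set.mem_singleton_iff] at hy
    subst hy
    have := inv_mem (IntermediateField.subset_adjoin E ({y⁻¹} : Set F) (Set.mem_singleton _))
    rwa [inv_inv] at this

end Inv

section Leaf

variable {R E F : Type} [CommRing R] [IsDomain R] [IsDiscreteValuationRing R]
  [HenselianLocalRing R] [IsAlgClosed (IsLocalRing.ResidueField R)]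
  [Field E] [CharZero E] [Algebra R E] [IsFractionRing R E]
  [Field F] [Algebra E F] [Algebra R F] [IsScalarTower R E F]

/-- `CountConclusion` for a Kummer-split cover, from the conclusions of BASE, SHEETS and RED. -/
theorem countConclusion_of (w : R) (q m : ℕ) (x : F) (Bf Bi : Subalgebra R F)
    (τ : F ≃+* F) (τE : E ≃+* E) (τR : R ≃+* R) (ctx : SSCtx w q m x Bf Bi τ τE τR)
    (hbase : BaseConclusion w x τ)
    (L : Type) [Field L] [Algebra F L] [Algebra R L] [IsScalarTower R F L]
    (hK : IsKummerSplitU L w x m) (hS : SheetsConclusion L w x) (hRed : RedConclusion L w x) :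
    CountConclusion L w x := by
  haveI := hK.finite
  haveI := hK.galois
  haveI := ctx.fin
  have hx0 : x ≠ 0 := by
    rintro rfl
    exact ctx.transc (isAlgebraic_zero)
  have hxL0 : algebraMap F L x ≠ 0 := (map_ne_zero (algebraMap F L)).2 hx0
  have hmu : IsUnit (m : R) := H12.isUnit_natCast_of_not_dvd ctx.qprime ctx.qmem ctx.qm
  obtain ⟨cf⟩ := ctx.cf
  obtain ⟨ci⟩ := ctx.ci
  refine ⟨?_, ?_⟩
  · exact countAt_of_chart w ctx.irr m ctx.mpos hmu x ctx.transc Bf ctx.hBf cf ctx.sf
      hbase.discrete L hK.gen hS (hRed _ (Or.inl rfl))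
  · -- the chart at infinity
    have hti : Transcendental E x⁻¹ := by
      intro h
      apply ctx.transc
      have := h.inv
      rwa [inv_inv] at this
    haveI hfi : FiniteDimensional (IntermediateField.adjoin E ({x⁻¹} : Set F)) F := by
      rw [adjoin_inv_eq_adjoin]
      exact ctx.fin
    have hinvL : algebraMap F L x⁻¹ = (algebraMap F L x)⁻¹ := map_inv₀ _ _
    have hgen : ∃ (n : ℕ) (y : Fin n → L) (g : Fin n → F),
        (∀ i, g i ≠ 0) ∧ (∀ i, y i ^ m = algebraMap F L (g i)) ∧
        IntermediateField.adjoin F (Set.range y) = ⊤ ∧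
        (∀ i, HorDiv R m (g i)) ∧ ∀ i, ∀ V : ValuationSubring F, IsSheet w x⁻¹ V →
          SplitAtU m V (g i) := by
      obtain ⟨n, y, g, h1, h2, h3, h4, h5⟩ := hK.gen
      exact ⟨n, y, g, h1, h2, h3, h4, fun i V hV => h5 i V ((isSheet_inv_iff w hx0 V).1 hV)⟩
    have hiff : ∀ W : ValuationSubring L,
        IsSheet w (algebraMap F L x⁻¹) W ↔ IsSheet w (algebraMap F L x) W := by
      intro W
      rw [hinvL]
      exact isSheet_inv_iff w hxL0 W
    have hSi : SheetsConclusion L w x⁻¹ := by
      refine ⟨?_, ?_, ?_, ?_, ?_, ?_⟩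
      · refine hS.finite.subset ?_
        intro W hW
        exact (hiff W).1 hW
      · intro V hV
        obtain ⟨W, hW, hWV⟩ := hS.exists_over V ((isSheet_inv_iff w hx0 V).1 hV)
        exact ⟨W, (hiff W).2 hW, hWV⟩
      · intro W hW
        exact hS.unif W ((hiff W).1 hW)
      · intro W hW
        exact hS.resdeg W ((hiff W).1 hW)
      · intro W W' hW hW'
        exact hS.trans W W' ((hiff W).1 hW) ((hiff W').1 hW')
      · intro W hW
        exact hS.free W ((hiff W).1 hW)
    have hredi : ∀ b ∈ chart R ({algebraMap F L x⁻¹} : Set L),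
        (∀ W : ValuationSubring L, IsSheet w (algebraMap F L x⁻¹) W → b ∈ W.nonunits) →
        ∃ b₁ ∈ chart R ({algebraMap F L x⁻¹} : Set L), b = algebraMap R L w * b₁ := by
      intro b hb hall
      rw [hinvL] at hb ⊢
      exact hRed _ (Or.inr (Or.inl rfl)) b hb (fun W hW => hall W ((hiff W).2 hW))
    have hcount := countAt_of_chart w ctx.irr m ctx.mpos hmu x⁻¹ hti Bi ctx.hBi ci ctx.si
      (fun V hV => hbase.discrete V ((isSheet_inv_iff w hx0 V).1 hV)) L hgen hSi hredi
    rw [hinvL] at hcount
    intro 𝔫 h𝔫 W W' hW hW' hcomap h1 h2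
    exact hcount 𝔫 h𝔫 W W' ((hiff W).2 hW) ((hiff W').2 hW') hcomap h1 h2

/-- **Leaf COUNT (corrected hub)**, from the leaves BASE, SHEETS and RED. -/
theorem countLeafU_of (hBase : BaseLeaf) (hSheets : SheetsLeafU) (hRed : RedLeafU) :
    CountLeafU := by
  intro R E F _ _ _ _ _ _ _ _ _ _ _ _ _ w q m x Bf Bi τ τE τR ctx L _ _ _ _ hK
  exact countConclusion_of w q m x Bf Bi τ τE τR ctx (hBase w q m x Bf Bi τ τE τR ctx) L hK
    (hSheets w q m x Bf Bi τ τE τR ctx L hK) (hRed w q m x Bf Bi τ τE τR ctx L hK)

end Leaf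

end Fermat.Agent.A2.H733
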