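import Fermat.Agent.A2.H733.CountLeaf
import Fermat.Agent.A2.H643.BaseLeaf
import Fermat.Agent.A2.H373.Sheets
import Fermat.Agent.A2.H652.RedLeafU

/-!
# Cell A2 — route G: the leaf COUNT, unconditional (helper733)

`countLeafU : H12.CountLeafU`, from `countLeafU_of` (`CountLeaf.lean`) and the leaves on main:
BASE (`H643.baseLeaf`), SHEETS (`H373.sheetsLeafU_of_base`), RED (`H652.redLeafU_of_sheetsU`).
-/

set_option autoImplicit false

namespace Fermat.Agent.A2.H733

open Fermat.Agent.A2 Fermat.Agent.A2.H12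

/-- Leaf SHEETS (corrected hub), unconditional. -/
theorem sheetsLeafU : SheetsLeafU :=
  Fermat.Agent.A2.H373.sheetsLeafU_of_base Fermat.Agent.A2.H643.baseLeaf

/-- Leaf RED (corrected hub), unconditional. -/
theorem redLeafU : RedLeafU :=
  Fermat.Agent.A2.H652.redLeafU_of_sheetsU sheetsLeafU

/-- **Leaf COUNT (corrected hub), unconditional.** -/
theorem countLeafU : CountLeafU :=
  countLeafU_of Fermat.Agent.A2.H643.baseLeaf sheetsLeafU redLeafU

end Fermat.Agent.A2.H733
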