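import Mathlib.FieldTheory.IntermediateField.Adjoin.Basic
import Mathlib.RingTheory.Localization.FractionRing
import Mathlib.RingTheory.Adjoin.Basic

/-!
# CountLeaf assembly, part 2: the base ring `Λ = R[t] ⊆ F` and its fraction field `E(t)`

`R` a discrete valuation ring with uniformiser `w`, `E = Frac R`, `F ⊇ E` a field, `t : F`
transcendental over `E`.  `Λ := Algebra.adjoin R {t}`, `K := IntermediateField.adjoin E {t}`.

* `algAdjoin : Algebra Λ K`, `isFractionRing_adjoin : IsFractionRing Λ K`.

(The ring-theoretic properties of `Λ` are in `A3/H492/ChartRing.lean`.)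
-/

set_option autoImplicit false
set_option linter.unusedSectionVars false

namespace Fermat.Agent.A2.H733

section Quot

variable (R : Type*) [CommRing R] {F : Type*} [Field F] [Algebra R F]

/-- The subfield of quotients of elements of a subalgebra. -/
def quotSubfield (A : Subalgebra R F) : Subfield F where
  carrier := {z | ∃ a ∈ A, ∃ b ∈ A, b ≠ 0 ∧ z * b = a}
  mul_mem' := by
    rintro z₁ z₂ ⟨a₁, ha₁, b₁, hb₁, h₁, e₁⟩ ⟨a₂, ha₂, b₂, hb₂, h₂, e₂⟩
    exact ⟨a₁ * a₂, A.mul_mem ha₁ ha₂, b₁ * b₂, A.mul_mem hb₁ hb₂, mul_ne_zero h₁ h₂, by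
      rw [← e₁, ← e₂]; ring⟩
  one_mem' := ⟨1, A.one_mem, 1, A.one_mem, one_ne_zero, by ring⟩
  add_mem' := by
    rintro z₁ z₂ ⟨a₁, ha₁, b₁, hb₁, h₁, e₁⟩ ⟨a₂, ha₂, b₂, hb₂, h₂, e₂⟩
    exact ⟨a₁ * b₂ + a₂ * b₁, A.add_mem (A.mul_mem ha₁ hb₂) (A.mul_mem ha₂ hb₁), b₁ * b₂,
      A.mul_mem hb₁ hb₂, mul_ne_zero h₁ h₂, by rw [← e₁, ← e₂]; ring⟩
  zero_mem' := ⟨0, A.zero_mem, 1, A.one_mem, one_ne_zero, by ring⟩
  neg_mem' := by
    rintro z ⟨a, ha, b, hb, h, e⟩
    exact ⟨-a, A.neg_mem ha, b, hb, h, by rw [← e]; ring⟩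
  inv_mem' := by
    rintro z ⟨a, ha, b, hb, h, e⟩
    by_cases hz : z = 0
    · subst hz
      exact ⟨0, A.zero_mem, 1, A.one_mem, one_ne_zero, by simp⟩
    · have ha0 : a ≠ 0 := by
        rw [← e]
        exact mul_ne_zero hz h
      exact ⟨b, hb, a, ha, ha0, by rw [← e]; field_simp⟩

theorem mem_quotSubfield {A : Subalgebra R F} {z : F} :
    z ∈ quotSubfield R A ↔ ∃ a ∈ A, ∃ b ∈ A, b ≠ 0 ∧ z * b = a := Iff.rfl

end Quot

section Setup

variable {R E F : Type*} [CommRing R] [IsDomain R]
  [Field E] [Algebra R E] [IsFractionRing R E]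
  [Field F] [Algebra E F] [Algebra R F] [IsScalarTower R E F]

/-- Every element of `E(t)` is a quotient of two elements of `R[t]`. -/
theorem exists_quot_of_mem_adjoin (t : F) {z : F}
    (hz : z ∈ IntermediateField.adjoin E ({t} : Set F)) :
    ∃ a ∈ Algebra.adjoin R ({t} : Set F), ∃ b ∈ Algebra.adjoin R ({t} : Set F),
      b ≠ 0 ∧ z * b = a := by
  have h1 : IntermediateField.adjoin E ({t} : Set F) ≤
      { quotSubfield R (Algebra.adjoin R ({t} : Set F)) with
        algebraMap_mem' := fun e => by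
          obtain ⟨r, s, hs, rfl⟩ := IsFractionRing.div_surjective (A := R) e
          have hs0 : algebraMap R F s ≠ 0 := by
            rw [IsScalarTower.algebraMap_apply R E F]
            intro h
            have h2 := (map_eq_zero (algebraMap E F)).1 h
            have h3 := (IsFractionRing.injective R E) (h2.trans (map_zero _).symm)
            exact nonZeroDivisors.ne_zero hs h3
          refine ⟨algebraMap R F r, Subalgebra.algebraMap_mem _ r, algebraMap R F s,
            Subalgebra.algebraMap_mem _ s, hs0, ?_⟩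
          rw [map_div₀, ← IsScalarTower.algebraMap_apply R E F,
            ← IsScalarTower.algebraMap_apply R E F]
          field_simp } := by
    rw [IntermediateField.adjoin_le_iff]
    intro y hy
    have hyt : y = t := hy
    rw [hyt]
    exact ⟨t, Algebra.subset_adjoin rfl, 1, Subalgebra.one_mem _, one_ne_zero, by ring⟩
  exact h1 hz

variable (R E) in
/-- `R[t] ⊆ E(t)`. -/
theorem adjoin_le_adjoin (t : F) {a : F} (ha : a ∈ Algebra.adjoin R ({t} : Set F)) :
    a ∈ IntermediateField.adjoin E ({t} : Set F) := by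
  induction ha using Algebra.adjoin_induction with
  | mem y hy =>
    exact IntermediateField.subset_adjoin E _ hy
  | algebraMap r =>
    rw [IsScalarTower.algebraMap_apply R E F]
    exact IntermediateField.algebraMap_mem _ _
  | add x y _ _ hx hy => exact add_mem hx hy
  | mul x y _ _ hx hy => exact mul_mem hx hy

variable (R E) in
/-- The inclusion `R[t] → E(t)`. -/
def adjoinIncl (t : F) :
    Algebra.adjoin R ({t} : Set F) →+* IntermediateField.adjoin E ({t} : Set F) where
  toFun a := ⟨a, adjoin_le_adjoin R E t a.2⟩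
  map_one' := rfl
  map_mul' _ _ := rfl
  map_zero' := rfl
  map_add' _ _ := rfl

variable (R E) in
/-- The algebra structure of `E(t)` over `R[t]`. -/
@[reducible] def algAdjoin (t : F) :
    Algebra (Algebra.adjoin R ({t} : Set F)) (IntermediateField.adjoin E ({t} : Set F)) :=
  (adjoinIncl R E t).toAlgebra

variable (R E) in
/-- `E(t)` is the fraction field of `R[t]`. -/
theorem isFractionRing_adjoin (t : F) :
    letI := algAdjoin R E t
    IsFractionRing (Algebra.adjoin R ({t} : Set F)) (IntermediateField.adjoin E ({t} : Set F)) := by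
  let _ := algAdjoin R E t
  have hinj : Function.Injective
      (algebraMap (Algebra.adjoin R ({t} : Set F)) (IntermediateField.adjoin E ({t} : Set F))) := by
    intro a b hab
    apply Subtype.ext
    exact congrArg (fun z : IntermediateField.adjoin E ({t} : Set F) => (z : F)) hab
  have : FaithfulSMul (Algebra.adjoin R ({t} : Set F))
      (IntermediateField.adjoin E ({t} : Set F)) :=
    (faithfulSMul_iff_algebraMap_injective _ _).2 hinj
  refine IsFractionRing.of_field _ _ ?_
  intro z
  obtain ⟨a, ha, b, hb, hb0, hab⟩ := exists_quot_of_mem_adjoin (R := R) t z.2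
  refine ⟨⟨a, ha⟩, ⟨b, hb⟩, ?_⟩
  have hb0' : algebraMap (Algebra.adjoin R ({t} : Set F))
      (IntermediateField.adjoin E ({t} : Set F)) ⟨b, hb⟩ ≠ 0 := by
    intro h
    exact hb0 (congrArg (fun z : IntermediateField.adjoin E ({t} : Set F) => (z : F)) h)
  rw [eq_div_iff hb0']
  apply Subtype.ext
  exact hab

end Setup

end Fermat.Agent.A2.H733
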