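import Fermat.Agent.A2.A3.H492.RedKummer
import Fermat.Agent.A2.H973.Upstairs

/-!
# CountLeaf assembly, part 3: COUNT upstairs from the Kummer discriminant relation

`count_upstairs` = `H973.sheets_unique_at_ideal` with the bases and the discriminant relation
produced by `A3.H492.exists_bases_associated_discr_of_kummer`, for ANY models `B`, `B'` of the
integral closures of `Λ` in `F` and in the Kummer cover `L` (`IsIntegralClosure`).

* `redDataOfModel` : the reduction datum `RedData Λ F w (Λ ⧸ w) (B ⧸ w B)` of a model `B`.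
-/

set_option autoImplicit false
set_option linter.unusedSectionVars false
set_option linter.style.haveILetI false

namespace Fermat.Agent.A2.H733

open Module Fermat.Agent.A2.A3.H492

section Model

variable (Λ F : Type*) [CommRing Λ] [Field F] [Algebra Λ F] (w : Λ)
  (B : Type*) [CommRing B] [Algebra Λ B] [Algebra B F] [IsScalarTower Λ B F]
  [IsIntegralClosure B Λ F]

/-- The reduction datum of a model `B` of the integral closure of `Λ` in `F`. -/
noncomputable def redDataOfModel : RedData Λ F w (Λ ⧸ Ideal.span {w})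
    (B ⧸ (Ideal.span {w}).map (algebraMap Λ B)) where
  red := Ideal.Quotient.mk _
  red_surj := Ideal.Quotient.mk_surjective
  red_ker := fun a => by
    rw [Ideal.Quotient.eq_zero_iff_mem, Ideal.mem_span_singleton]
  redB := (Ideal.Quotient.mk _).comp
    (IsIntegralClosure.equiv Λ (integralClosure Λ F) F B).toAlgHom.toRingHom
  redB_surj := by
    intro y
    obtain ⟨b, rfl⟩ := Ideal.Quotient.mk_surjective y
    exact ⟨(IsIntegralClosure.equiv Λ (integralClosure Λ F) F B).symm b, by simp⟩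
  redB_ker := fun β => by
    rw [RingHom.comp_apply, Ideal.Quotient.eq_zero_iff_mem, Ideal.map_span, Set.image_singleton,
      Ideal.mem_span_singleton]
    constructor
    · rintro ⟨γ, hγ⟩
      refine ⟨(IsIntegralClosure.equiv Λ (integralClosure Λ F) F B).symm γ, ?_⟩
      apply (IsIntegralClosure.equiv Λ (integralClosure Λ F) F B).injective
      rw [map_smul, AlgEquiv.apply_symm_apply, Algebra.smul_def]
      exact hγ
    · rintro ⟨γ, hγ⟩
      refine ⟨IsIntegralClosure.equiv Λ (integralClosure Λ F) F B γ, ?_⟩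
      rw [hγ]
      show (IsIntegralClosure.equiv Λ (integralClosure Λ F) F B) (w • γ) = _
      rw [map_smul, Algebra.smul_def]
  compat := fun a β => by
    rw [RingHom.comp_apply]
    show Ideal.Quotient.mk _ ((IsIntegralClosure.equiv Λ (integralClosure Λ F) F B) (a • β)) = _
    rw [map_smul, Algebra.smul_def, Algebra.smul_def, map_mul]
    rfl

theorem redDataOfModel_red : (redDataOfModel Λ F w B).red = Ideal.Quotient.mk _ := rfl

end Model

section Up

universe u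

variable {Λ K : Type*} {F L : Type u} [CommRing Λ] [IsDomain Λ] [IsIntegrallyClosed Λ]
  [IsNoetherianRing Λ] [UniqueFactorizationMonoid Λ]
  [Field K] [Algebra Λ K] [IsFractionRing Λ K] [CharZero K]
  [Field F] [Algebra K F] [Algebra Λ F] [IsScalarTower Λ K F] [FiniteDimensional K F]
  [Field L] [Algebra F L] [Algebra K L] [Algebra Λ L] [IsScalarTower K F L]
  [IsScalarTower Λ K L] [IsScalarTower Λ F L] [FiniteDimensional F L] [IsGalois F L]
  {B B' : Type*} [CommRing B] [CommRing B'] [Algebra Λ B] [Algebra Λ B'] [Algebra B B']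
  [IsScalarTower Λ B B']
  [Algebra B F] [IsScalarTower Λ B F] [IsIntegralClosure B Λ F]
  [Algebra B' L] [IsScalarTower Λ B' L] [IsIntegralClosure B' Λ L]
  [MulSemiringAction (L ≃ₐ[F] L) B'] [SMulCommClass (L ≃ₐ[F] L) B B']
  [Algebra.IsInvariant B B' (L ≃ₐ[F] L)]

/-- **COUNT upstairs for a Kummer cover.**  No proper ideal of the chart `B'` of the cover
contains two different conjugates of the same sheet. -/
theorem count_upstairs {w : Λ} (hw : Prime w) [IsPrincipalIdealRing (Λ ⧸ Ideal.span {w})]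
    (m : ℕ) (hm : IsUnit (m : Λ)) (s : Set L) (hs : IntermediateField.adjoin F s = ⊤)
    (hG : ∀ G ∈ s, G ≠ 0 ∧ ∃ g : F, algebraMap F L g = G ^ m ∧
      ∀ π : Λ, Prime π → ∀ V : ValuationSubring F, IsDiscreteValuationRing V →
        (∀ a : Λ, algebraMap Λ F a ∈ V) →
        (∀ a : Λ, ¬ π ∣ a → (algebraMap Λ F a)⁻¹ ∈ V) →
        ∃ h u : F, h ≠ 0 ∧ u ∈ V ∧ u⁻¹ ∈ V ∧ g = u * h ^ m)
    (b₀ : Fin (finrank K F) → F) (d₀ : Λ) (hb₀ : ∀ i, IsIntegral Λ (b₀ i))
    (hd₀ : algebraMap Λ K d₀ = Algebra.discr K b₀) (hwd : ¬ w ∣ d₀)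
    (p₁ p₂ : Ideal B) [p₁.IsPrime] [p₂.IsPrime]
    (hinf : p₁ ⊓ p₂ = (Ideal.span {w}).map (algebraMap Λ B)) (hrad : (p₁ ⊔ p₂).IsRadical)
    (hpP₁ : p₁.comap (algebraMap Λ B) = Ideal.span {w})
    (hpP₂ : p₂.comap (algebraMap Λ B) = Ideal.span {w})
    (hnle₁ : ¬ p₁ ≤ p₂) (hnle₂ : ¬ p₂ ≤ p₁)
    (Q₁ Q₂ : Ideal B')
    (hQp₁ : Q₁.comap (algebraMap B B') = p₁) (hQp₂ : Q₂.comap (algebraMap B B') = p₂)
    (hQs₁ : ∀ b' : B', ∃ b : B, b' - algebraMap B B' b ∈ Q₁)
    (hQs₂ : ∀ b' : B', ∃ b : B, b' - algebraMap B B' b ∈ Q₂)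
    (hred : ∀ x : B', (∀ g : L ≃ₐ[F] L, g • x ∈ Q₁) → (∀ g : L ≃ₐ[F] L, g • x ∈ Q₂) →
      x ∈ (Ideal.span {w}).map (algebraMap Λ B'))
    (𝔫 : Ideal B') (h𝔫 : 𝔫 ≠ ⊤) (g h : L ≃ₐ[F] L) :
    ((∀ x : B', g • x ∈ Q₁ → x ∈ 𝔫) → (∀ x : B', h • x ∈ Q₁ → x ∈ 𝔫) → g = h) ∧
    ((∀ x : B', g • x ∈ Q₂ → x ∈ 𝔫) → (∀ x : B', h • x ∈ Q₂ → x ∈ 𝔫) → g = h) := by
  classical
  haveI hprime : (Ideal.span {w} : Ideal Λ).IsPrime := (Ideal.span_singleton_prime hw.ne_zero).2 hw
  haveI : IsDomain (Λ ⧸ Ideal.span {w}) := Ideal.Quotient.isDomain _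
  obtain ⟨bC, bC', hass, hne⟩ := exists_bases_associated_discr_of_kummer (K := K) hw
    (redDataOfModel Λ F w B) (redDataOfModel Λ L w B') rfl m hm s hs hG
  have hne' := hne b₀ d₀ hb₀ hd₀ hwd
  letI : Fintype (L ≃ₐ[F] L) := Fintype.ofFinite _
  have hcard : Fintype.card (L ≃ₐ[F] L) = finrank F L := by
    rw [← Nat.card_eq_fintype_card]
    exact IsGalois.card_aut_eq_finrank F L
  have hrank : Fintype.card (Fin (finrank K L)) =
      Fintype.card (L ≃ₐ[F] L) * Fintype.card (Fin (finrank K F)) := by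
    rw [Fintype.card_fin, Fintype.card_fin, hcard, mul_comm]
    exact (Module.finrank_mul_finrank K F L).symm
  have hdvd : Algebra.discr (Λ ⧸ Ideal.span {w}) bC' ∣
      Algebra.discr (Λ ⧸ Ideal.span {w}) bC ^ Fintype.card (L ≃ₐ[F] L) := by
    rw [hcard]
    exact hass.dvd
  exact Fermat.Agent.A2.H973.sheets_unique_at_ideal (Ideal.span {w}) p₁ p₂ hinf hrad hpP₁ hpP₂
    hnle₁ hnle₂ Q₁ Q₂ hQp₁ hQp₂ hQs₁ hQs₂ hred bC bC' hrank hne' hdvd 𝔫 h𝔫 g h

end Up

end Fermat.Agent.A2.H733
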