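import Mathlib

/-!
# Discriminant of a finite product of algebras

`discr_pi_basis` : for `A`-algebras `Λ j` (`j` in a finite type) with bases `b j`, the discriminant
of the product basis `Pi.basis b` of `∀ j, Λ j` is the product of the discriminants of the `b j`.

Used in cell A2 (route G, COUNT): the normalisation of the special fibre of the cover is a product
of `d` copies of the normalisation of the special fibre of the base, so its discriminant is the
`d`-th power.

Mathlib-only.
-/

namespace Fermat.Agent.A2.H733

open Matrix

section Det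

variable {J : Type*} [Fintype J] [DecidableEq J] {κ : J → Type*} [∀ j, Fintype (κ j)]
  [∀ j, DecidableEq (κ j)] {R : Type*} [CommRing R]

/-- Determinant of a block diagonal matrix with blocks of varying size. -/
theorem det_blockDiagonal'_eq_prod (M : ∀ j, Matrix (κ j) (κ j) R) :
    (Matrix.blockDiagonal' M).det = ∏ j, (M j).det := by
  classical
  let _ : LinearOrder J := LinearOrder.lift' (Fintype.equivFin J) (Fintype.equivFin J).injective
  rw [(Matrix.blockTriangular_blockDiagonal' M).det_fintype]
  refine Finset.prod_congr rfl fun j _ => ?_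
  rw [← Matrix.det_reindex_self (Equiv.sigmaSubtype j).symm (M j)]
  congr 1
  ext ⟨⟨j1, i1⟩, h1⟩ ⟨⟨j2, i2⟩, h2⟩
  simp only at h1 h2
  subst h1
  subst h2
  simp [Matrix.toSquareBlock_def, Equiv.sigmaSubtype]

end Det

section Discr

variable {A : Type*} [CommRing A]
variable {J : Type*} [Fintype J] [DecidableEq J] {κ : J → Type*} [∀ j, Fintype (κ j)]
  [∀ j, DecidableEq (κ j)]
variable {Λ : J → Type*} [∀ j, CommRing (Λ j)] [∀ j, Algebra A (Λ j)]

/-- The trace of a finite product of finite free algebras is the sum of the traces. -/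
theorem trace_pi_eq_sum (b : ∀ j, Module.Basis (κ j) A (Λ j)) (x : ∀ j, Λ j) :
    Algebra.trace A (∀ j, Λ j) x = ∑ j, Algebra.trace A (Λ j) (x j) := by
  rw [Algebra.trace_eq_matrix_trace (Pi.basis b), Matrix.trace, Fintype.sum_sigma]
  refine Finset.sum_congr rfl fun j _ => ?_
  rw [Algebra.trace_eq_matrix_trace (b j), Matrix.trace]
  refine Finset.sum_congr rfl fun i _ => ?_
  rw [Matrix.diag_apply, Matrix.diag_apply, Algebra.leftMulMatrix_eq_repr_mul,
    Algebra.leftMulMatrix_eq_repr_mul, Pi.basis_repr, Pi.basis_apply]
  simp

/-- The trace matrix of the product basis is block diagonal. -/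
theorem traceMatrix_pi_basis (b : ∀ j, Module.Basis (κ j) A (Λ j)) :
    Algebra.traceMatrix A (Pi.basis b) =
      Matrix.blockDiagonal' fun j => Algebra.traceMatrix A (b j) := by
  ext ⟨j, i⟩ ⟨j', i'⟩
  rw [Algebra.traceMatrix_apply, Algebra.traceForm_apply, trace_pi_eq_sum b,
    Matrix.blockDiagonal'_apply']
  by_cases h : j = j'
  · subst h
    rw [dif_pos rfl, Finset.sum_eq_single j]
    · simp [Algebra.traceMatrix_apply, Algebra.traceForm_apply]
    · intro l _ hl
      simp [Pi.single_eq_of_ne hl]
    · intro hj
      exact absurd (Finset.mem_univ j) hj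
  · rw [dif_neg h]
    refine Finset.sum_eq_zero fun l _ => ?_
    by_cases hl : l = j
    · subst hl
      have : l ≠ j' := h
      simp [Pi.single_eq_of_ne this]
    · simp [Pi.single_eq_of_ne hl]

/-- **Discriminant of a product of algebras** is the product of the discriminants. -/
theorem discr_pi_basis (b : ∀ j, Module.Basis (κ j) A (Λ j)) :
    Algebra.discr A (Pi.basis b) = ∏ j, Algebra.discr A (b j) := by
  rw [Algebra.discr_def, traceMatrix_pi_basis, det_blockDiagonal'_eq_prod]
  rfl

end Discr

end Fermat.Agent.A2.H733
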