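import Mathlib

/-!
# C-IDX: the index of a sublattice over `k[X]` is the degree of the determinant

For a field `k`, a free `k[X]`-module `M` with basis `b`, and a submodule `N` with a basis `bN`
indexed by the same type, the `k`-dimension of `M ⧸ N` is the degree of the determinant of `bN`
expressed in `b`.  This is the function-field analogue of `Submodule.natAbs_det_basis_change`.

Together with `Algebra.discr_of_matrix_mulVec` this gives the classical
`disc(Λ) = disc(Λ̃) · index²` degree count used in the δ-invariant computation of cell A2
(route G, COUNT).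

Mathlib-only; no `Fermat.Prelude` dependency.
-/

namespace Fermat.Agent.A2.H733

open Module Polynomial Submodule

section IndexDegree

variable {k : Type*} [Field k] {M : Type*} [AddCommGroup M] [Module k[X] M] [Module k M]
  [IsScalarTower k k[X] M]

/-- The determinant of the inclusion composed with a linear equivalence `M ≃ N` is associated to
the product of the Smith normal form coefficients. -/
theorem associated_det_subtype_comp_equiv_prod_smith {R : Type*} [CommRing R] [IsDomain R]
    [IsPrincipalIdealRing R] {M : Type*} [AddCommGroup M] [Module R M]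
    {ι : Type*} [Fintype ι] (b : Basis ι R M)
    (N : Submodule R M) (h : Module.finrank R N = Module.finrank R M) (e : M ≃ₗ[R] N) :
    Associated (LinearMap.det (N.subtype ∘ₗ (e : M →ₗ[R] N)))
      (∏ i, smithNormalFormCoeffs b h i) := by
  classical
  let a := smithNormalFormCoeffs b h
  let b' := smithNormalFormTopBasis b h
  let ab := smithNormalFormBotBasis b h
  have ab_eq := smithNormalFormBotBasis_def b h
  let e' : M ≃ₗ[R] N := b'.equiv ab (Equiv.refl _)
  let f : M →ₗ[R] M := N.subtype.comp (e' : M →ₗ[R] N)
  have f_apply : ∀ x, f x = b'.equiv ab (Equiv.refl _) x := fun x ↦ rfl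
  have ha : ∀ i, f (b' i) = a i • b' i := by
    intro i
    rw [f_apply, b'.equiv_apply, Equiv.refl_apply]
    exact ab_eq i
  have hdet : LinearMap.det f = ∏ i, a i := by
    rw [← LinearMap.det_toMatrix b', ← Matrix.det_diagonal]
    congr 1
    ext i j
    rw [LinearMap.toMatrix_apply, ha, map_smul, Basis.repr_self, Finsupp.smul_single,
      smul_eq_mul, mul_one]
    by_cases hij : i = j
    · rw [hij, Matrix.diagonal_apply_eq, Finsupp.single_eq_same]
    · rw [Matrix.diagonal_apply_ne _ hij, Finsupp.single_eq_of_ne hij]
  have h1 : Associated (LinearMap.det (N.subtype ∘ₗ (e : M →ₗ[R] N))) (LinearMap.det f) :=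
    LinearMap.associated_det_comp_equiv _ _ _
  rw [hdet] at h1
  exact h1

/-- **C-IDX.**  For a field `k`, a `k[X]`-module `M` with basis `b` and a submodule `N` with
basis `bN` (same index type), `dim_k (M ⧸ N) = deg (det of bN in terms of b)`. -/
theorem finrank_quotient_eq_natDegree_det {ι : Type*} [Fintype ι] [DecidableEq ι]
    (b : Basis ι k[X] M) (N : Submodule k[X] M) (bN : Basis ι k[X] N) :
    Module.finrank k (M ⧸ N) = (b.det (fun i => (bN i : M))).natDegree := by
  have h : Module.finrank k[X] N = Module.finrank k[X] M := by
    rw [Module.finrank_eq_card_basis b, Module.finrank_eq_card_basis bN]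
  let e := b.equiv bN (Equiv.refl _)
  have hdet : b.det (fun i => (bN i : M)) = LinearMap.det (N.subtype ∘ₗ (e : M →ₗ[k[X]] N)) := by
    have := Basis.det_comp_basis bN b N.subtype
    simpa [e, Function.comp_def] using this
  have hass := associated_det_subtype_comp_equiv_prod_smith b N h e
  rw [hdet, natDegree_eq_of_degree_eq (degree_eq_degree_of_associated hass),
    natDegree_prod _ _ fun i _ => smithNormalFormCoeffs_ne_zero b h i]
  have : ∀ i, Module.Finite k (k[X] ⧸ Ideal.span ({smithNormalFormCoeffs b h i} : Set k[X])) :=
    fun i => PowerBasis.finite <| AdjoinRoot.powerBasis <| smithNormalFormCoeffs_ne_zero b h i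
  rw [finrank_quotient_eq_sum k b h]
  congr with i
  exact (AdjoinRoot.powerBasis <| smithNormalFormCoeffs_ne_zero b h i).finrank

end IndexDegree

end Fermat.Agent.A2.H733
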