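import Mathlib
import Fermat.Agent.A2.H733.IndexDegree

/-!
# C-IDX (b): discriminant–index formula for `k[X]`-lattices and the `δ`-multiplicativity

Let `A` be a domain, `Λ → Λ̃` an injective homomorphism of commutative `A`-algebras which are free
of the same finite rank over `A` (`Λ` = coordinate ring of a reduced curve, `Λ̃` = its partial
normalisation).  Then

* `trace_algHom_of_injective` : `Tr_{Λ̃/A} (φ a) = Tr_{Λ/A} a`;
* `discr_comp_of_injective` : `disc_A (φ ∘ b) = disc_A b`;
* `discr_eq_det_sq_mul` : `disc_A b = det(φ)² · disc_A b̃`;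
* for `A = k[X]`: `natDegree_discr_eq` : `deg disc Λ = 2 · dim_k (Λ̃ / Λ) + deg disc Λ̃`;
* `finrank_quotient_eq_mul_of_associated_discr` (**δ' = d · δ**): if
  `disc Λ' ~ (disc Λ)^d` and `disc Λ̃' ~ (disc Λ̃)^d` then
  `dim_k (Λ̃' / Λ') = d · dim_k (Λ̃ / Λ)`.

Mathlib-only.
-/

namespace Fermat.Agent.A2.H733

open Module Polynomial Matrix

section Trace

variable {A : Type*} [CommRing A] [IsDomain A]
variable {ι : Type*} [Fintype ι] [DecidableEq ι]

/-- Two square matrices intertwined by a matrix with nonzero determinant (over a domain) have the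
same trace. -/
theorem trace_eq_of_mul_eq_mul (P L L' : Matrix ι ι A) (hP : P.det ≠ 0) (h : P * L = L' * P) :
    L.trace = L'.trace := by
  have h1 : P.det • L = P.adjugate * (L' * P) := by
    rw [← h, ← Matrix.mul_assoc, adjugate_mul, Matrix.smul_mul, Matrix.one_mul]
  have h2 : P.det * L.trace = P.det * L'.trace := by
    have h3 := congrArg Matrix.trace h1
    rw [Matrix.trace_smul, smul_eq_mul, Matrix.trace_mul_comm, Matrix.mul_assoc, mul_adjugate,
      Matrix.mul_smul, Matrix.mul_one, Matrix.trace_smul, smul_eq_mul] at h3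
    exact h3
  exact mul_left_cancel₀ hP h2

/-- The matrix of an injective linear map between free modules of the same finite rank over a
domain has nonzero determinant. -/
theorem det_toMatrix_ne_zero_of_injective {M N : Type*} [AddCommGroup M] [Module A M]
    [AddCommGroup N] [Module A N] (b : Basis ι A M) (c : Basis ι A N) (f : M →ₗ[A] N)
    (hf : Function.Injective f) : (LinearMap.toMatrix b c f).det ≠ 0 := by
  intro h0
  obtain ⟨v, hv, hv0⟩ := Matrix.exists_mulVec_eq_zero_iff.2 h0
  have h1 : (LinearMap.toMatrix b c f) *ᵥ (b.equivFun (b.equivFun.symm v)) = 0 := by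
    rw [LinearEquiv.apply_symm_apply]; exact hv0
  have h2 : c.equivFun (f (b.equivFun.symm v)) = 0 := by
    rw [← h1]
    exact (LinearMap.toMatrix_mulVec_repr b c f (b.equivFun.symm v)).symm
  have h3 : f (b.equivFun.symm v) = 0 := by
    have h6 := congrArg c.equivFun.symm h2
    rw [LinearEquiv.symm_apply_apply, map_zero] at h6
    exact h6
  have h4 : b.equivFun.symm v = 0 := hf (by rw [h3, map_zero])
  apply hv
  have h5 := congrArg b.equivFun h4
  rw [LinearEquiv.apply_symm_apply, map_zero] at h5
  exact h5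

variable {Λ Λt : Type*} [CommRing Λ] [CommRing Λt] [Algebra A Λ] [Algebra A Λt]

/-- An injective algebra homomorphism between free algebras of the same finite rank over a domain
preserves traces. -/
theorem trace_algHom_of_injective (b : Basis ι A Λ) (bt : Basis ι A Λt) (φ : Λ →ₐ[A] Λt)
    (hφ : Function.Injective φ) (a : Λ) :
    Algebra.trace A Λt (φ a) = Algebra.trace A Λ a := by
  rw [Algebra.trace_eq_matrix_trace bt, Algebra.trace_eq_matrix_trace b]
  symm
  apply trace_eq_of_mul_eq_mul (LinearMap.toMatrix b bt φ.toLinearMap)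
  · exact det_toMatrix_ne_zero_of_injective b bt φ.toLinearMap hφ
  · rw [Algebra.leftMulMatrix_apply, Algebra.leftMulMatrix_apply, ← LinearMap.toMatrix_comp,
      ← LinearMap.toMatrix_comp]
    congr 1
    ext x
    simp

/-- An injective algebra homomorphism between free algebras of the same finite rank over a domain
preserves discriminants of families. -/
theorem discr_comp_of_injective {κ : Type*} [Fintype κ] [DecidableEq κ]
    (b : Basis ι A Λ) (bt : Basis ι A Λt) (φ : Λ →ₐ[A] Λt)
    (hφ : Function.Injective φ) (v : κ → Λ) :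
    Algebra.discr A (fun i => φ (v i)) = Algebra.discr A v := by
  rw [Algebra.discr_def, Algebra.discr_def]
  congr 1
  ext i j
  rw [Algebra.traceMatrix_apply, Algebra.traceMatrix_apply, Algebra.traceForm_apply,
    Algebra.traceForm_apply, ← map_mul, trace_algHom_of_injective b bt φ hφ]

/-- **Discriminant–index formula.**  `disc(Λ) = det(Λ → Λ̃)² · disc(Λ̃)`. -/
theorem discr_eq_det_sq_mul (b : Basis ι A Λ) (bt : Basis ι A Λt) (φ : Λ →ₐ[A] Λt)
    (hφ : Function.Injective φ) :
    Algebra.discr A b = (bt.det (fun i => φ (b i))) ^ 2 * Algebra.discr A bt := by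
  rw [← discr_comp_of_injective b bt φ hφ b, Basis.det_apply,
    ← Algebra.discr_of_matrix_vecMul, Basis.toMatrix_map_vecMul]

end Trace

section Degree

variable {k : Type*} [Field k]
variable {ι : Type*} [Fintype ι] [DecidableEq ι]
variable {Λ Λt : Type*} [CommRing Λ] [CommRing Λt] [Algebra k[X] Λ] [Algebra k[X] Λt]
  [Algebra k Λt] [IsScalarTower k k[X] Λt]

/-- C-IDX for an injective map of lattices: `dim_k (Λ̃ / φ Λ) = deg det φ`. -/
theorem finrank_quotient_range_eq_natDegree_det (b : Basis ι k[X] Λ) (bt : Basis ι k[X] Λt)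
    (φ : Λ →ₐ[k[X]] Λt) (hφ : Function.Injective φ) :
    Module.finrank k (Λt ⧸ LinearMap.range φ.toLinearMap) =
      (bt.det (fun i => φ (b i))).natDegree := by
  let e : Λ ≃ₗ[k[X]] LinearMap.range φ.toLinearMap := LinearEquiv.ofInjective φ.toLinearMap hφ
  have h := finrank_quotient_eq_natDegree_det bt (LinearMap.range φ.toLinearMap) (b.map e)
  rw [h]
  rfl

/-- `deg disc(Λ) = 2 · dim_k (Λ̃ / Λ) + deg disc(Λ̃)` for `k[X]`-lattices `Λ ⊆ Λ̃`. -/
theorem natDegree_discr_eq (b : Basis ι k[X] Λ) (bt : Basis ι k[X] Λt)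
    (φ : Λ →ₐ[k[X]] Λt) (hφ : Function.Injective φ) (hbt : Algebra.discr k[X] bt ≠ 0) :
    (Algebra.discr k[X] b).natDegree =
      2 * Module.finrank k (Λt ⧸ LinearMap.range φ.toLinearMap) +
        (Algebra.discr k[X] bt).natDegree := by
  have hdet : bt.det (fun i => φ (b i)) ≠ 0 := by
    have := det_toMatrix_ne_zero_of_injective b bt φ.toLinearMap hφ
    rw [Basis.det_apply]
    convert this using 2
    ext i j
    simp [LinearMap.toMatrix_apply, Basis.toMatrix_apply]
  rw [discr_eq_det_sq_mul b bt φ hφ, natDegree_mul (pow_ne_zero 2 hdet) hbt,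
    natDegree_pow, finrank_quotient_range_eq_natDegree_det b bt φ hφ]

end Degree

section Delta

variable {k : Type*} [Field k]
variable {ι ι' : Type*} [Fintype ι] [DecidableEq ι] [Fintype ι'] [DecidableEq ι']
variable {Λ Λt Λ' Λt' : Type*} [CommRing Λ] [CommRing Λt] [CommRing Λ'] [CommRing Λt']
  [Algebra k[X] Λ] [Algebra k[X] Λt] [Algebra k[X] Λ'] [Algebra k[X] Λt']
  [Algebra k Λt] [IsScalarTower k k[X] Λt] [Algebra k Λt'] [IsScalarTower k k[X] Λt']

/-- **`δ' = d · δ`.**  If the discriminants of the cover (`Λ' ⊆ Λ̃'`) are, up to units, the `d`-th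
powers of the discriminants of the base (`Λ ⊆ Λ̃`), then the `δ`-invariant of the cover is `d`
times the `δ`-invariant of the base. -/
theorem finrank_quotient_eq_mul_of_associated_discr
    (b : Basis ι k[X] Λ) (bt : Basis ι k[X] Λt) (φ : Λ →ₐ[k[X]] Λt) (hφ : Function.Injective φ)
    (b' : Basis ι' k[X] Λ') (bt' : Basis ι' k[X] Λt') (φ' : Λ' →ₐ[k[X]] Λt')
    (hφ' : Function.Injective φ') (d : ℕ)
    (hbt : Algebra.discr k[X] bt ≠ 0)
    (h : Associated (Algebra.discr k[X] b') (Algebra.discr k[X] b ^ d))
    (ht : Associated (Algebra.discr k[X] bt') (Algebra.discr k[X] bt ^ d)) :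
    Module.finrank k (Λt' ⧸ LinearMap.range φ'.toLinearMap) =
      d * Module.finrank k (Λt ⧸ LinearMap.range φ.toLinearMap) := by
  have hbt' : Algebra.discr k[X] bt' ≠ 0 := by
    intro h0
    rw [h0] at ht
    exact pow_ne_zero d hbt (by simpa using ht.symm)
  have e1 := natDegree_discr_eq b bt φ hφ hbt
  have e2 := natDegree_discr_eq b' bt' φ' hφ' hbt'
  have e3 : (Algebra.discr k[X] b').natDegree = d * (Algebra.discr k[X] b).natDegree := by
    rw [natDegree_eq_of_degree_eq (degree_eq_degree_of_associated h), natDegree_pow]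
  have e4 : (Algebra.discr k[X] bt').natDegree = d * (Algebra.discr k[X] bt).natDegree := by
    rw [natDegree_eq_of_degree_eq (degree_eq_degree_of_associated ht), natDegree_pow]
  rw [e3, e4, e1, Nat.mul_add] at e2
  have e5 : 2 * (d * Module.finrank k (Λt ⧸ LinearMap.range φ.toLinearMap)) =
      2 * Module.finrank k (Λt' ⧸ LinearMap.range φ'.toLinearMap) := by
    have : d * (2 * Module.finrank k (Λt ⧸ LinearMap.range φ.toLinearMap)) =
        2 * (d * Module.finrank k (Λt ⧸ LinearMap.range φ.toLinearMap)) := by ring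
    omega
  omega

end Delta

end Fermat.Agent.A2.H733
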