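import Mathlib
import Fermat.Agent.A2.H913.Count
import Fermat.Agent.A2.H733.IndexDiscr
import Fermat.Agent.A2.H733.DiscrPi

/-!
# COUNT, producer of `hδ`: `δ(cover) = d · δ(base)` in the vocabulary of `H913.uni_of_delta_two`

Special fibres `Λ → Λ'` (base and cover, over the residue field `k`), both free of finite rank over
`k[X]`, components `𝔭 c` of the base, sheets `𝔮 s` of the cover, each sheet mapping isomorphically
onto its component, `d` sheets over each component.  If both fibres are reduced, the components are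
generically separable over the `X`-line (`discr ≠ 0`) and `disc(Λ') ~ disc(Λ)^d`, then
`H913.DeltaMod k 𝔮` is finite-dimensional and
`finrank (H913.DeltaMod k 𝔮) = d * finrank (H913.DeltaMod k 𝔭)`.

This is precisely the input `hδ` (and the `Module.Finite` instance) of `H913.uni_of_delta` /
`H913.uni_of_delta_two`.
-/

namespace Fermat.Agent.A2.H733

open Module Polynomial

section Lattice

variable {k : Type*} [Field k] {M : Type*} [AddCommGroup M] [Module k[X] M] [Module k M]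
  [IsScalarTower k k[X] M]

/-- The quotient of a `k[X]`-lattice by a sublattice of the same rank is finite-dimensional over
`k`. -/
theorem finite_quotient_of_bases {ι : Type*} [Fintype ι] (b : Basis ι k[X] M)
    (N : Submodule k[X] M) (bN : Basis ι k[X] N) : Module.Finite k (M ⧸ N) := by
  have h : Module.finrank k[X] N = Module.finrank k[X] M := by
    rw [Module.finrank_eq_card_basis b, Module.finrank_eq_card_basis bN]
  have : ∀ i, Module.Finite k
      (k[X] ⧸ Ideal.span ({Submodule.smithNormalFormCoeffs b h i} : Set k[X])) :=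
    fun i => PowerBasis.finite <| AdjoinRoot.powerBasis <|
      Submodule.smithNormalFormCoeffs_ne_zero b h i
  exact Module.Finite.equiv ((N.quotientEquivPiSpan b h).restrictScalars k).symm

/-- Every element of a `k[X]`-module which is finite-dimensional over `k` is torsion. -/
theorem exists_ne_zero_smul_eq_zero {Q : Type*} [AddCommGroup Q] [Module k[X] Q] [Module k Q]
    [IsScalarTower k k[X] Q] [Module.Finite k Q] (x : Q) : ∃ p : k[X], p ≠ 0 ∧ p • x = 0 := by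
  let g : k[X] →ₗ[k] Q := (LinearMap.toSpanSingleton k[X] Q x).restrictScalars k
  have hg : ¬ Function.Injective g := fun hinj =>
    Polynomial.not_finite (R := k) (Module.Finite.of_injective g hinj)
  rw [injective_iff_map_eq_zero] at hg
  push Not at hg
  obtain ⟨p, hp, hp0⟩ := hg
  exact ⟨p, hp0, hp⟩

/-- A sublattice with finite-dimensional quotient has the same rank. -/
theorem card_eq_of_finite_quotient {ι ι₂ : Type*} [Fintype ι] [Fintype ι₂] (b : Basis ι k[X] M)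
    (N : Submodule k[X] M) (bN : Basis ι₂ k[X] N) [Module.Finite k (M ⧸ N)] :
    Fintype.card ι₂ = Fintype.card ι := by
  have : Module.Finite k[X] M := Module.Finite.of_basis b
  have h1 := Submodule.finrank_quotient_add_finrank N
  have h2 : Module.finrank k[X] (M ⧸ N) = 0 :=
    Module.finrank_eq_zero_iff.2 fun x => exists_ne_zero_smul_eq_zero x
  rw [h2, zero_add, Module.finrank_eq_card_basis b, Module.finrank_eq_card_basis bN] at h1
  exact h1

end Lattice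

section Diag

variable (k : Type*) [Field k] {Λ : Type*} [CommRing Λ] [Algebra k[X] Λ]
  {C : Type*} (𝔭 : C → Ideal Λ)

/-- The diagonal map `Λ → ∏ Λ/𝔭 c` as a `k[X]`-algebra homomorphism. -/
noncomputable def diagAlg : Λ →ₐ[k[X]] (∀ c, Λ ⧸ 𝔭 c) :=
  AlgHom.pi (fun c => Ideal.Quotient.mkₐ k[X] (𝔭 c))

@[simp] theorem diagAlg_apply (a : Λ) (c : C) : diagAlg k 𝔭 a c = Ideal.Quotient.mk (𝔭 c) a := rfl

theorem diagAlg_injective (hred : ⨅ c, 𝔭 c = ⊥) : Function.Injective (diagAlg k 𝔭) := by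
  rw [injective_iff_map_eq_zero]
  intro a ha
  have h1 : a ∈ ⨅ c, 𝔭 c := by
    rw [Ideal.mem_iInf]
    intro c
    have := congrFun ha c
    rw [diagAlg_apply] at this
    exact Ideal.Quotient.eq_zero_iff_mem.1 this
  rw [hred] at h1
  exact h1

variable [Algebra k Λ] [IsScalarTower k k[X] Λ]

theorem range_diagPi_eq :
    LinearMap.range (H913.diagPi (k := k) 𝔭) =
      (LinearMap.range (diagAlg k 𝔭).toLinearMap).restrictScalars k := by
  ext f
  constructor
  · rintro ⟨a, rfl⟩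
    exact ⟨a, rfl⟩
  · rintro ⟨a, rfl⟩
    exact ⟨a, rfl⟩

/-- `H913.DeltaMod` is the quotient of the `k[X]`-lattice `∏ Λ/𝔭 c` by the image of `Λ`. -/
noncomputable def deltaModEquiv :
    H913.DeltaMod k 𝔭 ≃ₗ[k]
      ((∀ c, Λ ⧸ 𝔭 c) ⧸ LinearMap.range (diagAlg k 𝔭).toLinearMap) :=
  (Submodule.quotEquivOfEq _ _ (range_diagPi_eq k 𝔭)).trans
    (Submodule.Quotient.restrictScalarsEquiv k _)

end Diag

section Sheet

variable {A : Type*} [CommRing A] {Λ Λ' : Type*} [CommRing Λ] [CommRing Λ'] [Algebra A Λ]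
  [Algebra A Λ']

/-- A sheet mapping isomorphically onto its component. -/
noncomputable def sheetEquiv (φ : Λ →ₐ[A] Λ') (P : Ideal Λ) (Q : Ideal Λ')
    (hle : P ≤ Q.comap φ) (hinj : ∀ a, φ a ∈ Q → a ∈ P) (hsurj : ∀ b : Λ', ∃ a : Λ, b - φ a ∈ Q) :
    (Λ ⧸ P) ≃ₐ[A] (Λ' ⧸ Q) :=
  AlgEquiv.ofBijective (Ideal.quotientMapₐ Q φ hle) (by
    constructor
    · rw [injective_iff_map_eq_zero]
      intro z hz
      obtain ⟨a, rfl⟩ := Ideal.Quotient.mk_surjective z
      have h1 : Ideal.quotientMapₐ Q φ hle (Ideal.Quotient.mk P a) = Ideal.Quotient.mk Q (φ a) :=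
        rfl
      rw [h1, Ideal.Quotient.eq_zero_iff_mem] at hz
      exact Ideal.Quotient.eq_zero_iff_mem.2 (hinj a hz)
    · intro z
      obtain ⟨b, rfl⟩ := Ideal.Quotient.mk_surjective z
      obtain ⟨a, ha⟩ := hsurj b
      refine ⟨Ideal.Quotient.mk P a, ?_⟩
      have h1 : Ideal.quotientMapₐ Q φ hle (Ideal.Quotient.mk P a) = Ideal.Quotient.mk Q (φ a) :=
        rfl
      rw [h1]
      exact (Ideal.Quotient.eq.2 ha).symm)

end Sheet

section Main

variable {k : Type*} [Field k] {Λ Λ' : Type*} [CommRing Λ] [CommRing Λ'] [Algebra k Λ]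
  [Algebra k Λ'] [Algebra k[X] Λ] [IsScalarTower k k[X] Λ] [Algebra k[X] Λ']
  [IsScalarTower k k[X] Λ']
variable {C Sh : Type*} [Fintype C] [Fintype Sh]
variable {ι ι' : Type*} [Fintype ι] [Fintype ι'] [DecidableEq ι] [DecidableEq ι']
variable {κ : C → Type*} [∀ c, Fintype (κ c)] [∀ c, DecidableEq (κ c)]

/-- **COUNT, producer of `hδ`.**  `δ(cover) = d · δ(base)`. -/
theorem deltaMod_cover_eq (φ : Λ →ₐ[k[X]] Λ') (𝔭 : C → Ideal Λ) (𝔮 : Sh → Ideal Λ')
    (col : Sh → C) (d : ℕ) (hd : ∀ c, Nat.card {s // col s = c} = d)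
    (hle : ∀ s, 𝔭 (col s) ≤ (𝔮 s).comap φ)
    (hinj : ∀ s a, φ a ∈ 𝔮 s → a ∈ 𝔭 (col s))
    (hsurj : ∀ s (b : Λ'), ∃ a : Λ, b - φ a ∈ 𝔮 s)
    (hred : ⨅ c, 𝔭 c = ⊥) (hred' : ⨅ s, 𝔮 s = ⊥)
    (b : Basis ι k[X] Λ) (b' : Basis ι' k[X] Λ') (bc : ∀ c, Basis (κ c) k[X] (Λ ⧸ 𝔭 c))
    (hrank : Fintype.card ι = ∑ c, Fintype.card (κ c))
    (hrank' : Fintype.card ι' = d * Fintype.card ι)
    (hsep : ∀ c, Algebra.discr k[X] (bc c) ≠ 0)
    (hdisc : Associated (Algebra.discr k[X] b') (Algebra.discr k[X] b ^ d)) :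
    Module.Finite k (H913.DeltaMod k 𝔮) ∧
      Module.finrank k (H913.DeltaMod k 𝔮) = d * Module.finrank k (H913.DeltaMod k 𝔭) := by
  classical
  -- bases of the sheets
  let ψ : ∀ s, (Λ ⧸ 𝔭 (col s)) ≃ₐ[k[X]] (Λ' ⧸ 𝔮 s) := fun s =>
    sheetEquiv φ (𝔭 (col s)) (𝔮 s) (hle s) (hinj s) (hsurj s)
  let bs : ∀ s, Basis (κ (col s)) k[X] (Λ' ⧸ 𝔮 s) := fun s =>
    (bc (col s)).map (ψ s).toLinearEquiv
  have hbs : ∀ s, Algebra.discr k[X] (bs s) = Algebra.discr k[X] (bc (col s)) := by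
    intro s
    rw [Algebra.discr_eq_discr_of_algEquiv (bc (col s)) (ψ s)]
    rfl
  -- cardinalities
  have hfib : ∀ c, (Finset.univ.filter fun s => col s = c).card = d := by
    intro c
    rw [← hd c, Nat.card_eq_fintype_card, Fintype.card_subtype]
  have hcardt : Fintype.card (Σ c, κ c) = Fintype.card ι := by
    rw [Fintype.card_sigma, hrank]
  have hcardt' : Fintype.card (Σ s, κ (col s)) = Fintype.card ι' := by
    rw [Fintype.card_sigma, hrank', hrank, Finset.mul_sum,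
      ← Finset.sum_fiberwise_of_maps_to (g := col) (s := Finset.univ) (t := Finset.univ)
        (fun _ _ => Finset.mem_univ _)]
    refine Finset.sum_congr rfl fun c _ => ?_
    rw [Finset.sum_congr rfl (fun s hs => by rw [(Finset.mem_filter.1 hs).2] :
      ∀ s ∈ Finset.univ.filter (fun s => col s = c), Fintype.card (κ (col s)) =
        Fintype.card (κ c)), Finset.sum_const, hfib c, smul_eq_mul]
  let e : (Σ c, κ c) ≃ ι := Fintype.equivOfCardEq hcardt
  let e' : (Σ s, κ (col s)) ≃ ι' := Fintype.equivOfCardEq hcardt'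
  let bt : Basis ι k[X] (∀ c, Λ ⧸ 𝔭 c) := (Pi.basis bc).reindex e
  let bt' : Basis ι' k[X] (∀ s, Λ' ⧸ 𝔮 s) := (Pi.basis bs).reindex e'
  have hbt : Algebra.discr k[X] bt = ∏ c, Algebra.discr k[X] (bc c) := by
    rw [← discr_pi_basis bc, ← Algebra.discr_reindex k[X] (Pi.basis bc) e, Basis.coe_reindex]
  have hbt' : Algebra.discr k[X] bt' = (∏ c, Algebra.discr k[X] (bc c)) ^ d := by
    have h1 : Algebra.discr k[X] bt' = ∏ s, Algebra.discr k[X] (bs s) := by
      rw [← discr_pi_basis bs, ← Algebra.discr_reindex k[X] (Pi.basis bs) e', Basis.coe_reindex]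
    rw [h1, ← Finset.prod_pow,
      ← Finset.prod_fiberwise_of_maps_to (g := col) (s := Finset.univ) (t := Finset.univ)
        (fun _ _ => Finset.mem_univ _)]
    refine Finset.prod_congr rfl fun c _ => ?_
    rw [Finset.prod_congr rfl (fun s hs => by rw [hbs s, (Finset.mem_filter.1 hs).2] :
      ∀ s ∈ Finset.univ.filter (fun s => col s = c), Algebra.discr k[X] (bs s) =
        Algebra.discr k[X] (bc c)), Finset.prod_const, hfib c]
  have hbt0 : Algebra.discr k[X] bt ≠ 0 := by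
    rw [hbt]
    exact Finset.prod_ne_zero_iff.2 fun c _ => hsep c
  have hΦ := diagAlg_injective k 𝔭 hred
  have hΦ' := diagAlg_injective k 𝔮 hred'
  have key := finrank_quotient_eq_mul_of_associated_discr b bt (diagAlg k 𝔭) hΦ
    b' bt' (diagAlg k 𝔮) hΦ' d hbt0 hdisc (by rw [hbt', hbt])
  have hfin : Module.Finite k
      ((∀ s, Λ' ⧸ 𝔮 s) ⧸ LinearMap.range (diagAlg k 𝔮).toLinearMap) :=
    finite_quotient_of_bases bt' _
      (b'.map (LinearEquiv.ofInjective (diagAlg k 𝔮).toLinearMap hΦ'))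
  refine ⟨Module.Finite.equiv (deltaModEquiv k 𝔮).symm, ?_⟩
  rw [(deltaModEquiv k 𝔮).finrank_eq, (deltaModEquiv k 𝔭).finrank_eq]
  exact key

omit [DecidableEq ι] [∀ c, DecidableEq (κ c)] in
/-- The rank hypothesis of `deltaMod_cover_eq` follows from the finite-dimensionality of the
`δ`-module of the base. -/
theorem card_eq_sum_of_finite_deltaMod (𝔭 : C → Ideal Λ) (hred : ⨅ c, 𝔭 c = ⊥)
    (b : Basis ι k[X] Λ) (bc : ∀ c, Basis (κ c) k[X] (Λ ⧸ 𝔭 c))
    [Module.Finite k (H913.DeltaMod k 𝔭)] :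
    Fintype.card ι = ∑ c, Fintype.card (κ c) := by
  classical
  have hΦ := diagAlg_injective k 𝔭 hred
  have : Module.Finite k ((∀ c, Λ ⧸ 𝔭 c) ⧸ LinearMap.range (diagAlg k 𝔭).toLinearMap) :=
    Module.Finite.equiv (deltaModEquiv k 𝔭)
  have h := card_eq_of_finite_quotient (Pi.basis bc) _
    (b.map (LinearEquiv.ofInjective (diagAlg k 𝔭).toLinearMap hΦ))
  rw [h, Fintype.card_sigma]

/-- **COUNT, producer of `hδ`**, with the rank of the base deduced from the finiteness of its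
`δ`-module (e.g. from `H913.deltaMod_two_le`). -/
theorem deltaMod_cover_eq' (φ : Λ →ₐ[k[X]] Λ') (𝔭 : C → Ideal Λ) (𝔮 : Sh → Ideal Λ')
    (col : Sh → C) (d : ℕ) (hd : ∀ c, Nat.card {s // col s = c} = d)
    (hle : ∀ s, 𝔭 (col s) ≤ (𝔮 s).comap φ)
    (hinj : ∀ s a, φ a ∈ 𝔮 s → a ∈ 𝔭 (col s))
    (hsurj : ∀ s (b : Λ'), ∃ a : Λ, b - φ a ∈ 𝔮 s)
    (hred : ⨅ c, 𝔭 c = ⊥) (hred' : ⨅ s, 𝔮 s = ⊥)
    (b : Basis ι k[X] Λ) (b' : Basis ι' k[X] Λ') (bc : ∀ c, Basis (κ c) k[X] (Λ ⧸ 𝔭 c))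
    [Module.Finite k (H913.DeltaMod k 𝔭)]
    (hrank' : Fintype.card ι' = d * Fintype.card ι)
    (hsep : ∀ c, Algebra.discr k[X] (bc c) ≠ 0)
    (hdisc : Associated (Algebra.discr k[X] b') (Algebra.discr k[X] b ^ d)) :
    Module.Finite k (H913.DeltaMod k 𝔮) ∧
      Module.finrank k (H913.DeltaMod k 𝔮) = d * Module.finrank k (H913.DeltaMod k 𝔭) :=
  deltaMod_cover_eq φ 𝔭 𝔮 col d hd hle hinj hsurj hred hred' b b' bc
    (card_eq_sum_of_finite_deltaMod 𝔭 hred b bc) hrank' hsep hdisc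

/-- **COUNT, two-component form, from discriminants.**  `H913.uni_of_delta_two` with the input
`δ(cover) ≤ d · δ(base)` replaced by the discriminant relation `disc(Λ') ~ disc(Λ)^d` of the
special fibres over `k[X]` (+ reducedness and generic separability of the components). -/
theorem uni_of_discr_two {X : Type*} [Finite X]
    (φ : Λ →ₐ[k[X]] Λ') (𝔭 : C → Ideal Λ) (𝔮 : Sh → Ideal Λ')
    (col : Sh → C) (d : ℕ) (hd : ∀ c, Nat.card {s // col s = c} = d)
    (hle : ∀ s, 𝔭 (col s) ≤ (𝔮 s).comap φ)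
    (hinj : ∀ s a, φ a ∈ 𝔮 s → a ∈ 𝔭 (col s))
    (hsurj : ∀ s (b : Λ'), ∃ a : Λ, b - φ a ∈ 𝔮 s)
    (c₁ c₂ : C) (hc : c₁ ≠ c₂) (hC : ∀ c, c = c₁ ∨ c = c₂)
    (χ : X → (Λ →ₐ[k] k)) (hχ : Function.Injective χ)
    (hX : ∀ c x, 𝔭 c ≤ RingHom.ker (χ x))
    (hM5 : ∀ a : Λ, (∀ x, χ x a = 0) → a ∈ 𝔭 c₁ ⊔ 𝔭 c₂)
    (hgd : ∀ (y : Λ' →ₐ[k] k) (x : X), y.comp (φ.restrictScalars k) = χ x → ∀ c,
      ∃ s, col s = c ∧ 𝔮 s ≤ RingHom.ker y)
    (hred : ⨅ c, 𝔭 c = ⊥) (hred' : ⨅ s, 𝔮 s = ⊥)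
    (b : Basis ι k[X] Λ) (b' : Basis ι' k[X] Λ') (bc : ∀ c, Basis (κ c) k[X] (Λ ⧸ 𝔭 c))
    (hrank' : Fintype.card ι' = d * Fintype.card ι)
    (hsep : ∀ c, Algebra.discr k[X] (bc c) ≠ 0)
    (hdisc : Associated (Algebra.discr k[X] b') (Algebra.discr k[X] b ^ d)) :
    ∀ (s t : Sh) (y : Λ' →ₐ[k] k) (x : X), y.comp (φ.restrictScalars k) = χ x →
      𝔮 s ≤ RingHom.ker y → 𝔮 t ≤ RingHom.ker y → col s = col t → s = t := by
  obtain ⟨hfin, -⟩ := H913.deltaMod_two_le 𝔭 c₁ c₂ hC χ hX hM5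
  obtain ⟨hfin', hδ⟩ := deltaMod_cover_eq' φ 𝔭 𝔮 col d hd hle hinj hsurj hred hred' b b' bc
    hrank' hsep hdisc
  exact H913.uni_of_delta_two (φ.restrictScalars k) 𝔭 𝔮 col d hd hle hinj hsurj c₁ c₂ hc hC χ hχ
    hX hM5 hgd hδ.le

end Main

end Fermat.Agent.A2.H733
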