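import Fermat.Agent.A2.H12.WallG

/-!
# Route G, obligation C7 (FIXED-SHEET): `wallG` without a fixed sheet

`H12.wallG` assumes that the lift `τ̃` fixes one sheet `s₀`.  If the Galois group `Γ` of the cover
acts transitively on the sheets of each colour (C2: the valuations over `V₁` are conjugate), one
can always replace `τ̃` by `σ₀ τ̃` with `σ₀ ∈ Γ` fixing a sheet.  `wallG_of_transitive` packages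
this: the hypotheses on `τ̃` that survive composition with `σ₀` are derived, the only ones that
have to be supplied for all the lifts `σ τ̃` are `h_triv` (C5 proves it for every lift) .

Conclusion: `∃ σ₀ ∈ Γ, ∀ σ ∈ Γ, σ ((σ₀ τ̃) y / y) = (σ₀ τ̃) y / y`; since `σ₀` is trivial on the
base field, `((σ₀ τ̃) y / y)^m = τ(g)/g` for `g = y^m`.
-/

set_option autoImplicit false

namespace Fermat.Agent.A2.H733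

open Fermat.Agent.A2.H12

variable {R : Type*} [CommRing R] {L : Type*} [Field L] [Algebra R L] {S : Type*}

/-- **C7 + `wallG`.**  Route-G wall with transitivity of `Γ` on the sheets of each colour in place
of a fixed sheet. -/
theorem wallG_of_transitive [Fintype S] [Nonempty S] (w : R) (Bfin Binf Bmid : Subalgebra R L)
    (M : S → AddSubgroup L)
    (habs : ∀ s, ∀ c ∈ Bmid, ∀ a ∈ M s, c * a ∈ M s)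
    (hfm : Bfin ≤ Bmid) (him : Binf ≤ Bmid)
    (hM1 : ∀ s, (1 : L) ∉ M s) (hwM : ∀ s, algebraMap R L w ∈ M s)
    (hred_mid : ∀ b ∈ Bmid, (∀ s, b ∈ M s) → ∃ t ∈ Bmid, b = algebraMap R L w * t)
    (hred_fin : ∀ b ∈ Bfin, (∀ s, b ∈ M s) → ∃ t ∈ Bfin, b = algebraMap R L w * t)
    (hred_inf : ∀ b ∈ Binf, (∀ s, b ∈ M s) → ∃ t ∈ Binf, b = algebraMap R L w * t)
    (hcech : ∀ e₁ e₂ : L, e₁ ∈ Bfin → e₂ ∈ Binf →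
      (∃ t ∈ Bfin, e₁ ^ 2 - e₁ = algebraMap R L w * t) →
      (∃ t ∈ Binf, e₂ ^ 2 - e₂ = algebraMap R L w * t) →
      (∃ t ∈ Bmid, e₁ - e₂ = algebraMap R L w * t) →
      ((∃ t ∈ Bfin, e₁ = algebraMap R L w * t) ∧ (∃ t ∈ Binf, e₂ = algebraMap R L w * t)) ∨
      ((∃ t ∈ Bfin, 1 - e₁ = algebraMap R L w * t) ∧
        (∃ t ∈ Binf, 1 - e₂ = algebraMap R L w * t)))
    (τ : L ≃+* L) (hτfin : ∀ b, b ∈ Bfin ↔ τ b ∈ Bfin) (hτinf : ∀ b, b ∈ Binf ↔ τ b ∈ Binf)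
    (hτM : ∀ s, ∃ s', ∀ b, b ∈ M s ↔ τ b ∈ M s')
    (hMinj : Function.Injective M)
    {C : Type*} (col : S → C)
    (h_col : ∀ s s', (∀ b, b ∈ M s ↔ τ b ∈ M s') → col s' = col s)
    (Γ : Subgroup (L ≃+* L))
    (hΓfin : ∀ σ ∈ Γ, ∀ b, b ∈ Bfin ↔ σ b ∈ Bfin)
    (hΓinf : ∀ σ ∈ Γ, ∀ b, b ∈ Binf ↔ σ b ∈ Binf)
    (hΓM : ∀ σ ∈ Γ, ∀ s, ∃ s', ∀ b, b ∈ M s ↔ σ b ∈ M s')
    (hΓcol : ∀ σ ∈ Γ, ∀ s s', (∀ b, b ∈ M s ↔ σ b ∈ M s') → col s' = col s)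
    (htrans : ∀ s s', col s = col s' → ∃ σ ∈ Γ, ∀ b, b ∈ M s ↔ σ b ∈ M s')
    (h_triv : ∀ σ ∈ Γ, ∀ s, (∀ b, b ∈ M s ↔ (σ * τ) b ∈ M s) →
      ∀ b, b ∈ Bfin ∨ b ∈ Binf → (σ * τ) b - b ∈ M s)
    (h_uni_fin : ∀ 𝔫 : Ideal Bfin, 𝔫.IsMaximal → ∀ s t, col s = col t →
      (∀ c : Bfin, (c : L) ∈ M s → c ∈ 𝔫) → (∀ c : Bfin, (c : L) ∈ M t → c ∈ 𝔫) → s = t)
    (h_uni_inf : ∀ 𝔫 : Ideal Binf, 𝔫.IsMaximal → ∀ s t, col s = col t →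
      (∀ c : Binf, (c : L) ∈ M s → c ∈ 𝔫) → (∀ c : Binf, (c : L) ∈ M t → c ∈ 𝔫) → s = t)
    (hfree : ∀ σ ∈ Γ, ∀ s, (∀ b, b ∈ M s ↔ σ b ∈ M s) → σ = 1)
    (hnorm : ∀ σ ∈ Γ, τ * σ * τ⁻¹ ∈ Γ)
    (y : L) (hy : y ≠ 0)
    (hζ : ∀ σ ∈ Γ, ∃ ζ : L, σ y = ζ * y ∧ τ ζ = ζ ∧ ∀ σ' ∈ Γ, σ' ζ = ζ) :
    ∃ σ₀ ∈ Γ, ∀ σ ∈ Γ, σ ((σ₀ * τ) y / y) = (σ₀ * τ) y / y := by
  obtain ⟨s₀⟩ := ‹Nonempty S›
  obtain ⟨s', hs'⟩ := hτM s₀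
  obtain ⟨σ₀, hσ₀, hσ₀M⟩ := htrans s' s₀ (h_col s₀ s' hs')
  have hmul : ∀ b, (σ₀ * τ) b = σ₀ (τ b) := fun _ => rfl
  refine ⟨σ₀, hσ₀, ?_⟩
  refine wallG w Bfin Binf Bmid M habs hfm him hM1 hwM hred_mid hred_fin hred_inf hcech
    (σ₀ * τ) ?_ ?_ ?_ hMinj col ?_ (h_triv σ₀ hσ₀) h_uni_fin h_uni_inf s₀ ?_ Γ hΓM hfree ?_
    y hy ?_
  · intro b
    rw [hmul, ← hΓfin σ₀ hσ₀, ← hτfin]
  · intro b
    rw [hmul, ← hΓinf σ₀ hσ₀, ← hτinf]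
  · intro s
    obtain ⟨s₁, hs₁⟩ := hτM s
    obtain ⟨s₂, hs₂⟩ := hΓM σ₀ hσ₀ s₁
    exact ⟨s₂, fun b => by rw [hmul, ← hs₂, ← hs₁]⟩
  · intro s s₂ h
    obtain ⟨s₁, hs₁⟩ := hτM s
    have h2 : ∀ b, b ∈ M s₁ ↔ σ₀ b ∈ M s₂ := by
      intro b
      have h3 := h (τ.symm b)
      rw [hmul, RingEquiv.apply_symm_apply] at h3
      rw [← h3, hs₁ (τ.symm b), RingEquiv.apply_symm_apply]
    rw [hΓcol σ₀ hσ₀ s₁ s₂ h2, h_col s s₁ hs₁]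
  · intro b
    rw [hmul, ← hσ₀M, ← hs']
  · intro σ hσ
    have h1 : σ₀ * τ * σ * (σ₀ * τ)⁻¹ = σ₀ * (τ * σ * τ⁻¹) * σ₀⁻¹ := by
      group
    rw [h1]
    exact Γ.mul_mem (Γ.mul_mem hσ₀ (hnorm σ hσ)) (Γ.inv_mem hσ₀)
  · intro σ hσ
    obtain ⟨ζ, h1, h2, h3⟩ := hζ σ hσ
    exact ⟨ζ, h1, by rw [hmul, h2, h3 σ₀ hσ₀]⟩

end Fermat.Agent.A2.H733
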